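import Fermat.Agent.H45.SS.KLSSAbs

/-!
# P-SS : local Hartogs statement and local principalisation from places (helper45)

* `CentredAt A E₀ y 𝔪 V` : the place `V` of `E₀ / K₀` is finite in the chart `y` and its centre
  on `B(y)` is contained in the maximal ideal `𝔪`.
* `LocalHartogsStatement` (row N3, Mathlib only): an element of the Gauss closure `C(y)` which
  lies in every place centred at `𝔪` has no pole at `𝔪`, i.e. `b z ∈ B(y)` for some `b ∉ 𝔪`.
* `localPrinc_of_places` : the hypothesis `LocalPrinc` of the abstract key lemma KL-SS from the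
  place-wise form: at every maximal ideal `𝔪 ∋ ϖ` a function `Hinv ≡ 1` modulo `ϖ C` such that
  `u * Hinv ^ r` lies in every place centred at `𝔪`.
-/

set_option autoImplicit false

noncomputable section

namespace Fermat.Agent.H45

open Fermat.Agent.H22.KL

/-- The place `V` of `E₀ / K₀` (finite in the chart `y`) is centred in the maximal ideal `𝔪` of
`B(y)`: every element of `B(y)` which is a non-unit of `V` lies in `𝔪`. -/
def CentredAt (A : Type) [CommRing A] (E₀ : Type) [Field E₀] [Algebra A E₀] (y : E₀)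
    (𝔪 : Ideal (chartClosure A E₀ y)) (V : ValuationSubring E₀) : Prop :=
  IsFinitePlace A E₀ y V ∧ ∀ s : chartClosure A E₀ y, (s : E₀) ∈ V.nonunits → s ∈ 𝔪

/-- **LOCAL HARTOGS** (Mathlib only).  `A` a DVR, `E₀` a field of characteristic zero, finite
over `K₀(y)`, `𝔪 ∋ ϖ` a maximal ideal of `B(y)`, `z ∈ C(y)` (no pole along the special fibre)
lying in every place centred at `𝔪` (no horizontal pole through `𝔪`).  Then `z` has no pole at
`𝔪`: `b z ∈ B(y)` for some `b ∈ B(y) ∖ 𝔪`. -/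
def LocalHartogsStatement : Prop :=
  ∀ (A : Type) [CommRing A] [IsDomain A] [IsDiscreteValuationRing A]
    (E₀ : Type) [Field E₀] [Algebra A E₀] [CharZero E₀],
    Function.Injective (algebraMap A E₀) →
    ∀ (ϖ : A), Irreducible ϖ → ∀ (y : E₀), Transcendental A y →
    (∃ n : ℕ, Nonempty (Module.Basis (Fin n) (chartField A E₀ y) E₀)) →
    ∀ (𝔪 : Ideal (chartClosure A E₀ y)), 𝔪.IsMaximal →
      algebraMap A (chartClosure A E₀ y) ϖ ∈ 𝔪 →
      ∀ z : E₀, z ∈ gaussClosure A E₀ ϖ y →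
        (∀ V : ValuationSubring E₀, CentredAt A E₀ y 𝔪 V → z ∈ V) →
        ∃ b : chartClosure A E₀ y, b ∉ 𝔪 ∧ (b : E₀) * z ∈ chartClosure A E₀ y

/-- **Local principalisation from places.** -/
theorem localPrinc_of_places (hH : LocalHartogsStatement)
    (A : Type) [CommRing A] [IsDomain A] [IsDiscreteValuationRing A]
    (E₀ : Type) [Field E₀] [Algebra A E₀] [CharZero E₀]
    (hinj : Function.Injective (algebraMap A E₀))
    (ϖ : A) (hϖ : Irreducible ϖ) (y : E₀) (hy : Transcendental A y)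
    (hfd : ∃ n : ℕ, Nonempty (Module.Basis (Fin n) (chartField A E₀ y) E₀))
    (r : ℕ) (u : E₀) (hu : u ∈ gaussClosure A E₀ ϖ y)
    (h : ∀ 𝔪 : Ideal (chartClosure A E₀ y), 𝔪.IsMaximal →
      algebraMap A (chartClosure A E₀ y) ϖ ∈ 𝔪 →
      ∃ Hinv : E₀, Hinv ∈ gaussClosure A E₀ ϖ y ∧
        PiDvdSet A E₀ ϖ (gaussClosure A E₀ ϖ y) (Hinv - 1) ∧
        ∀ V : ValuationSubring E₀, CentredAt A E₀ y 𝔪 V → u * Hinv ^ r ∈ V) :
    LocalPrinc A E₀ ϖ y r u := by
  intro 𝔪 h𝔪 hϖ𝔪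
  obtain ⟨Hinv, hHC, hH1, hV⟩ := h 𝔪 h𝔪 hϖ𝔪
  refine ⟨Hinv, hHC, hH1, ?_⟩
  obtain ⟨-, hC, -⟩ := Fermat.Agent.H89.gaussClosureStatement A E₀ hinj ϖ hϖ y hy
  have hpow : ∀ n : ℕ, Hinv ^ n ∈ gaussClosure A E₀ ϖ y → Hinv ^ (n + 1) ∈ gaussClosure A E₀ ϖ y :=
    fun n hn => by rw [pow_succ]; exact (hC _ hn _ hHC).2.1
  have hHr : ∀ n : ℕ, 0 < n → Hinv ^ n ∈ gaussClosure A E₀ ϖ y := by
    intro n hn
    induction n with
    | zero => exact absurd hn (lt_irrefl 0)
    | succ k ih =>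
      rcases Nat.eq_zero_or_pos k with rfl | hk
      · simpa using hHC
      · exact hpow k (ih hk)
  have hz : u * Hinv ^ r ∈ gaussClosure A E₀ ϖ y := by
    rcases Nat.eq_zero_or_pos r with rfl | hr
    · simpa using hu
    · exact (hC _ hu _ (hHr r hr)).2.1
  exact hH A E₀ hinj ϖ hϖ y hy hfd 𝔪 h𝔪 hϖ𝔪 _ hz hV

end Fermat.Agent.H45
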