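import Fermat.Agent.H45.SS.Model

/-!
# P-SS hard half : two SHARED MODEL INPUTS of the point rows, exact Lean form (helper45)

* `ModelFracStatement M q x₀` (**FRAC**, residue degree one; shared by the ordinary points and
  the cusps): the residue field of the Gauss valuation ring `V_∞` of level `M q` is generated by
  level `M`: for every `z ∈ V_∞` there are `b₁, b₂` of level `M`, integral over `A₀[x]`,
  `b₂ ∉ 𝔪_∞`, with `z b₂ - b₁ ∈ 𝔪_∞`.
* `ModelGenStatement M q h₀` (**GEN**; crossing points): the model field of level `M q` is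
  generated over the level `M` field (embedded by `α`) by `β H = H(t^q)`, for the function `H`
  of level `M` with `q`-expansion `h₀`.
-/

set_option autoImplicit false
set_option linter.style.haveILetI false
set_option linter.unusedSectionVars false

noncomputable section

namespace Fermat.Agent.H45

open Polynomial ModularCurve AlgebraicCurve
open Fermat.Agent.H22.KL
open Fermat.Agent.H82.SS

/-- **FRAC (residue degree one at the cusp `∞`).**  For every `z` in the Gauss valuation ring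
`V_∞` of `E₀ = ModelField K₁ (M q)` (quotient form: `z b = a`, `a b` with `A₀`-integral
`q`-expansions, `b` primitive) there are `b₁ b₂ : ModelField K₁ M` whose images under `α` are
integral over `A₀[x]`, with `α b₂ ∉ 𝔪_∞` and `z * α b₂ - α b₁ ∈ 𝔪_∞`.

PROOF (on the landed two-sided machinery of helper66 / helper82 / helper7).
Family of `H66.SS.Final`: `e (inl i) = θ ^ i` (level `M`), `e (inr (i, j)) = θ ^ i u x_q ^ j`
with `u = x_q - x ^ q ∈ 𝔪_∞` (Frobenius congruence), `u' = x - x_q ^ q ∈ 𝔪_0`.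
(1) `ε := u' / (u + u')` has `ε - 1 ∈ 𝔪_∞` and `ε ∈ 𝔪_0` (`W u = u'`, `u + u'` is a unit of
`V_∞` and of `V_0` because its reduction is `x̄ - x̄ ^ (q²) ≠ 0`).
(2) `V_0` is discrete with uniformiser `ϖ` (`H7.SS.HasGNF`), so `z' := z ε ^ n ∈ V_∞ ∩ V_0` for
`n` large, and `z' - z ∈ 𝔪_∞`.
(3) As in the proof of `H82.SS.qexp2_core`: the normalised expansion
`h(x) z' = ∑ p_s(x) e_s` (`h, p_s ∈ A₀[X]` not all divisible by `ϖ`) has `ϖ ∤ h`.
(4) Modulo `𝔪_∞` the terms `s = inr (i, j)` vanish: `h(x) z ≡ ∑_i p_(inl i)(x) θ ^ i`.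
Take `b₂ = h(x)`, `b₁ = ∑_i p_(inl i)(x) θ ^ i`.
The twin for the cusp `0` follows by applying `W`. -/
def ModelFracStatement (M q : ℕ) [NeZero M] [NeZero q] (x₀ : LaurentSeries ℚ) : Prop :=
  ∀ (K₁ : Type) [Field K₁] [Algebra ℚ K₁] [FiniteDimensional ℚ K₁]
    (A₀ : Type) [CommRing A₀] [IsDomain A₀] [IsDiscreteValuationRing A₀]
    [Algebra A₀ K₁] [IsFractionRing A₀ K₁]
    [Algebra A₀ (ModelField K₁ (M * q))] [IsScalarTower A₀ K₁ (ModelField K₁ (M * q))],
    ¬ IsUnit ((q : ℕ) : A₀) →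
    ∀ (ϖ : A₀), Irreducible ϖ →
    ∀ (x : ModelField K₁ (M * q)), (x : LaurentSeries K₁) = coeffEmb K₁ x₀ →
    ∀ z : ModelField K₁ (M * q),
      (∃ a b : ModelField K₁ (M * q),
        (∀ n : ℤ, (a : LaurentSeries K₁).coeff n ∈ (algebraMap A₀ K₁).range) ∧
        (∀ n : ℤ, (b : LaurentSeries K₁).coeff n ∈ (algebraMap A₀ K₁).range) ∧
        (∃ (n : ℤ) (c : A₀), IsUnit c ∧ algebraMap A₀ K₁ c = (b : LaurentSeries K₁).coeff n) ∧
        z * b = a) →
      ∃ b₁ b₂ : ModelField K₁ M,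
        heckeAlphaBar K₁ M q b₁ ∈ chartClosure A₀ (ModelField K₁ (M * q)) x ∧
        heckeAlphaBar K₁ M q b₂ ∈ chartClosure A₀ (ModelField K₁ (M * q)) x ∧
        ¬ SSMaxInfty K₁ (M * q) A₀ ϖ (heckeAlphaBar K₁ M q b₂) ∧
        SSMaxInfty K₁ (M * q) A₀ ϖ (z * heckeAlphaBar K₁ M q b₂ - heckeAlphaBar K₁ M q b₁)

/-- **GEN.**  `E₀ = α(E₀')(β H)`: every element of the model field of level `M q` is a
polynomial in `β H = H(t^q)` with coefficients of level `M`, where `H : ModelField K₁ M` has the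
`q`-expansion `h₀` (in the application `h₀` is the Hauptmodul of level `4` resp. `9`, or `jq`).
(`[E₀ : α E₀'] = q + 1` by `H65.qes_finrankAlong_heckeAlphaBar`, and `β H` has `q + 1` distinct
conjugates over `α E₀'`: its images `H(t^q)`, `H(ζ^k t^(1/q))` under the `q + 1` embeddings
`τ_∞, τ_k` of `H42.ESENormSeries` / `H65.QES` are distinct because `h₀` is not constant.) -/
def ModelGenStatement (M q : ℕ) [NeZero M] [NeZero q] (h₀ : LaurentSeries ℚ) : Prop :=
  ∀ (K₁ : Type) [Field K₁] [Algebra ℚ K₁] [FiniteDimensional ℚ K₁]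
    (H : ModelField K₁ M), (H : LaurentSeries K₁) = coeffEmb K₁ h₀ →
    ∀ z : ModelField K₁ (M * q), ∃ p : (ModelField K₁ M)[X],
      z = p.eval₂ (heckeAlphaBar K₁ M q : ModelField K₁ M →+* ModelField K₁ (M * q))
        (heckeBetaBar K₁ M q H)

end Fermat.Agent.H45
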