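import Fermat.Agent.H45.SS.LocalGen
import Fermat.Agent.H82.SS.ModelAsm

/-!
# P-SS hard half : the GEOMETRIC statements, exact Lean form (helper45)

Level `M q`, `q` prime, `q ∤ M`, auxiliary level (`4 ∣ M` if `q ≠ 2`, `9 ∣ M` if `q = 2`).
Model as in `Fermat.Agent.H82.SS.ModelQExp2Statement`: `K₁` a number field, `A₀` a discrete
valuation ring of `K₁` over `q`, `E₀ = ModelField K₁ (M q) ⊆ K₁((t))`, `x` the chart coordinate
with `q`-expansion `x₀`, `W` the Atkin-Lehner automorphism, `B(y)` the integral closure of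
`A₀[y]` in `E₀` (`y = x` or `y = x⁻¹`).

The special fibre has two components: `𝔮_∞ = B ∩ 𝔪_∞` and `𝔮_0 = B ∩ W⁻¹ 𝔪_∞`, where `𝔪_∞`
(`SSMaxInfty`) is the maximal ideal of the Gauss valuation ring of `q`-expansions.  A maximal ideal `𝔪 ∋ ϖ` of `B` is

* ORDINARY (more precisely: NOT A CROSSING POINT) if it does not contain both `𝔮_∞` and `𝔮_0`;
* a CROSSING POINT (supersingular) if it contains both.

THE geometric statement is `PlaceGenAt A₀ E₀ y 𝔪` (module `LocalGen`): every RATIONAL place `V`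
centred at `𝔪` has a uniformiser which is a unit at all other places centred at `𝔪`.

* `SSPlaceGenOrdStatement`   : chart `x`, `𝔪` not a crossing point  (row SSH-7).
* `SSPlaceGenCrossStatement` : chart `x`, `𝔪` a crossing point      (rows SSH-6, SSH-9).
* `SSPlaceGenCuspStatement`  : chart `x⁻¹`, `x⁻¹ ∈ 𝔪`                (row SSH-8).
* `ChartTransferStatement`   : abstract; `𝔪 ⊆ B(y⁻¹)` with `y⁻¹ ∉ 𝔪` has the same places as a
  maximal ideal of `B(y)`.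
* `SSPlaceGenStatement`      : all maximal ideals of both charts; `ssPlaceGen_of_parts`.
* `FiniteZerosStatement`     : abstract; a nonzero function has finitely many zeros and poles.

In every model statement the provider chooses `R > 0`; the consumer supplies a primitive `R`-th
root of unity in `K₁`.
-/

set_option autoImplicit false
set_option linter.style.haveILetI false
set_option linter.unusedSectionVars false

noncomputable section

namespace Fermat.Agent.H45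

open Polynomial ModularCurve AlgebraicCurve
open Fermat.Agent.H22.KL
open Fermat.Agent.H82.SS

/-! ## The two components -/

/-- `z ∈ 𝔪_∞`: `z` is a quotient `a / b` of elements of the model field with `A₀`-integral
`q`-expansions, all coefficients of `a` in `ϖ A₀`, `b` primitive (the maximal ideal of the
Gauss valuation ring `V_∞` at the cusp `∞`; same quotient shape as
`Fermat.Agent.H82.SS.ModelGaussConverseStatement`). -/
def SSMaxInfty (K₁ : Type) [Field K₁] [Algebra ℚ K₁] (N : ℕ) (A₀ : Type) [CommRing A₀]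
    [Algebra A₀ K₁] (ϖ : A₀) (z : ModelField K₁ N) : Prop :=
  ∃ a b : ModelField K₁ N,
    (∀ n : ℤ, ∃ c : A₀, algebraMap A₀ K₁ (ϖ * c) = (a : LaurentSeries K₁).coeff n) ∧
    (∀ n : ℤ, (b : LaurentSeries K₁).coeff n ∈ (algebraMap A₀ K₁).range) ∧
    (∃ (n : ℤ) (c : A₀), IsUnit c ∧ algebraMap A₀ K₁ c = (b : LaurentSeries K₁).coeff n) ∧
    z * b = a

/-- `𝔮_∞ ⊆ 𝔪`: the maximal ideal `𝔪` of `B(y)` lies on the component of the cusp `∞`. -/
def SSOnInfty (K₁ : Type) [Field K₁] [Algebra ℚ K₁] (N : ℕ) (A₀ : Type) [CommRing A₀]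
    [Algebra A₀ K₁] [Algebra A₀ (ModelField K₁ N)] (ϖ : A₀) (y : ModelField K₁ N)
    (𝔪 : Ideal (chartClosure A₀ (ModelField K₁ N) y)) : Prop :=
  ∀ s : chartClosure A₀ (ModelField K₁ N) y,
    SSMaxInfty K₁ N A₀ ϖ (s : ModelField K₁ N) → s ∈ 𝔪

/-- `𝔮_0 ⊆ 𝔪`: the maximal ideal `𝔪` of `B(y)` lies on the component of the cusp `0`
(`𝔪_0 = W⁻¹ 𝔪_∞`). -/
def SSOnZero (K₁ : Type) [Field K₁] [Algebra ℚ K₁] (N : ℕ) (A₀ : Type) [CommRing A₀]
    [Algebra A₀ K₁] [Algebra A₀ (ModelField K₁ N)] (ϖ : A₀)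
    (W : ModelField K₁ N ≃ₐ[K₁] ModelField K₁ N) (y : ModelField K₁ N)
    (𝔪 : Ideal (chartClosure A₀ (ModelField K₁ N) y)) : Prop :=
  ∀ s : chartClosure A₀ (ModelField K₁ N) y,
    SSMaxInfty K₁ N A₀ ϖ (W (s : ModelField K₁ N)) → s ∈ 𝔪

/-! ## The three geometric statements -/

/-- **SSH-7, ORDINARY POINTS** (chart `x`): place generators at every maximal ideal `𝔪 ∋ ϖ` of
`B(x)` which is not a crossing point.
(Route: if `𝔮_0 ⊄ 𝔪`, then `𝔮_∞ B_𝔪 = ϖ B_𝔪`, and `B_𝔪 / ϖ` is a local subring `≠` field of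
the residue field of the Gauss valuation at `∞`, which is the residue field of level `M`; it
contains the local ring of level `M` at `𝔪 ∩ B_M`, a DVR; DVRs are maximal subrings; hence
`𝔪 B_𝔪 = (ϖ, U)` with `U` of level `M`, and `Fermat.Agent.H71.SS.RegPoint` applies with
`t = U - a`.  The case `𝔮_∞ ⊄ 𝔪` follows by `W`.) -/
def SSPlaceGenOrdStatement (M q : ℕ) [NeZero M] [NeZero q] (x₀ : LaurentSeries ℚ) (R : ℕ) :
    Prop :=
  ∀ (K₁ : Type) [Field K₁] [Algebra ℚ K₁] [FiniteDimensional ℚ K₁]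
    (A₀ : Type) [CommRing A₀] [IsDomain A₀] [IsDiscreteValuationRing A₀]
    [Algebra A₀ K₁] [IsFractionRing A₀ K₁]
    [Algebra A₀ (ModelField K₁ (M * q))] [IsScalarTower A₀ K₁ (ModelField K₁ (M * q))],
    ¬ IsUnit ((q : ℕ) : A₀) →
    (∃ ζ : K₁, IsPrimitiveRoot ζ R) →
    ∀ (ϖ : A₀), Irreducible ϖ →
    ∀ (x : ModelField K₁ (M * q)), (x : LaurentSeries K₁) = coeffEmb K₁ x₀ →
    ∀ (W : ModelField K₁ (M * q) ≃ₐ[K₁] ModelField K₁ (M * q)), IsAtkinLehnerModel K₁ M q W →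
    ∀ 𝔪 : Ideal (chartClosure A₀ (ModelField K₁ (M * q)) x), 𝔪.IsMaximal →
      algebraMap A₀ (chartClosure A₀ (ModelField K₁ (M * q)) x) ϖ ∈ 𝔪 →
      ¬ (SSOnInfty K₁ (M * q) A₀ ϖ x 𝔪 ∧ SSOnZero K₁ (M * q) A₀ ϖ W x 𝔪) →
      PlaceGenAt A₀ (ModelField K₁ (M * q)) x 𝔪

/-- **SSH-6 + SSH-9, CROSSING POINTS** (chart `x`): place generators at every maximal ideal
`𝔪 ∋ ϖ` of `B(x)` lying on both components.
(Route: `𝔪` is supersingular and not cuspidal; `X = H_q - H ^ q` and `Y = H - H_q ^ q` lie in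
`𝔪`, `X Y = q Ψ` with `Ψ ∉ 𝔪`; a rational place `V` centred at `𝔪` has `0 < v(X(V)) < v(q)`;
`t = X - X(V)` has a simple zero at `V` and no other zero centred at `𝔪`:
`Fermat.Agent.H60.SS.TubeVal`, `Fermat.Agent.H45.ssc_unique`.) -/
def SSPlaceGenCrossStatement (M q : ℕ) [NeZero M] [NeZero q] (x₀ : LaurentSeries ℚ) (R : ℕ) :
    Prop :=
  ∀ (K₁ : Type) [Field K₁] [Algebra ℚ K₁] [FiniteDimensional ℚ K₁]
    (A₀ : Type) [CommRing A₀] [IsDomain A₀] [IsDiscreteValuationRing A₀]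
    [Algebra A₀ K₁] [IsFractionRing A₀ K₁]
    [Algebra A₀ (ModelField K₁ (M * q))] [IsScalarTower A₀ K₁ (ModelField K₁ (M * q))],
    ¬ IsUnit ((q : ℕ) : A₀) →
    (∃ ζ : K₁, IsPrimitiveRoot ζ R) →
    ∀ (ϖ : A₀), Irreducible ϖ →
    ∀ (x : ModelField K₁ (M * q)), (x : LaurentSeries K₁) = coeffEmb K₁ x₀ →
    ∀ (W : ModelField K₁ (M * q) ≃ₐ[K₁] ModelField K₁ (M * q)), IsAtkinLehnerModel K₁ M q W →
    ∀ 𝔪 : Ideal (chartClosure A₀ (ModelField K₁ (M * q)) x), 𝔪.IsMaximal →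
      algebraMap A₀ (chartClosure A₀ (ModelField K₁ (M * q)) x) ϖ ∈ 𝔪 →
      SSOnInfty K₁ (M * q) A₀ ϖ x 𝔪 → SSOnZero K₁ (M * q) A₀ ϖ W x 𝔪 →
      PlaceGenAt A₀ (ModelField K₁ (M * q)) x 𝔪

/-- **SSH-8, CUSPS** (chart `x⁻¹`): place generators at every maximal ideal `𝔪 ∋ ϖ, x⁻¹` of
`B(x⁻¹)`.
(Route: cuspidal points are not crossing points; on the component `∞` the level-`M` local ring
at the cusp is a DVR modulo `ϖ` (Tate curve / `q`-expansion at the cusp), and the argument of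
SSH-7 gives `𝔪 B_𝔪 = (ϖ, U)`; the component `0` by `W` - note that `W` does not preserve
`B(x⁻¹)`, only its localisations at cuspidal maximal ideals.) -/
def SSPlaceGenCuspStatement (M q : ℕ) [NeZero M] [NeZero q] (x₀ : LaurentSeries ℚ) (R : ℕ) :
    Prop :=
  ∀ (K₁ : Type) [Field K₁] [Algebra ℚ K₁] [FiniteDimensional ℚ K₁]
    (A₀ : Type) [CommRing A₀] [IsDomain A₀] [IsDiscreteValuationRing A₀]
    [Algebra A₀ K₁] [IsFractionRing A₀ K₁]
    [Algebra A₀ (ModelField K₁ (M * q))] [IsScalarTower A₀ K₁ (ModelField K₁ (M * q))],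
    ¬ IsUnit ((q : ℕ) : A₀) →
    (∃ ζ : K₁, IsPrimitiveRoot ζ R) →
    ∀ (ϖ : A₀), Irreducible ϖ →
    ∀ (x : ModelField K₁ (M * q)), (x : LaurentSeries K₁) = coeffEmb K₁ x₀ →
    ∀ (W : ModelField K₁ (M * q) ≃ₐ[K₁] ModelField K₁ (M * q)), IsAtkinLehnerModel K₁ M q W →
    ∀ 𝔪 : Ideal (chartClosure A₀ (ModelField K₁ (M * q)) x⁻¹), 𝔪.IsMaximal →
      algebraMap A₀ (chartClosure A₀ (ModelField K₁ (M * q)) x⁻¹) ϖ ∈ 𝔪 →
      (∀ s : chartClosure A₀ (ModelField K₁ (M * q)) x⁻¹,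
        (s : ModelField K₁ (M * q)) = x⁻¹ → s ∈ 𝔪) →
      PlaceGenAt A₀ (ModelField K₁ (M * q)) x⁻¹ 𝔪

/-! ## Chart transfer -/

/-- **CHART TRANSFER** (abstract; Mathlib + `H85.chartBasics`): a maximal ideal `𝔪 ∋ ϖ` of
`B(y⁻¹)` with `y⁻¹ ∉ 𝔪` has the same places as a maximal ideal `𝔪' ∋ ϖ` of `B(y)`.
(`𝔪' = 𝔪 B(y⁻¹)[y] ∩ B(y)`, where `B(y⁻¹)[y] = B(y)[y⁻¹]` by the overlap lemma; `𝔪'` is maximal
because `B(y⁻¹) / 𝔪` is a finite extension of `A / ϖ`.) -/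
def ChartTransferStatement : Prop :=
  ∀ (A : Type) [CommRing A] [IsDomain A] [IsDiscreteValuationRing A]
    (E₀ : Type) [Field E₀] [Algebra A E₀] [CharZero E₀],
    Function.Injective (algebraMap A E₀) →
    ∀ (ϖ : A), Irreducible ϖ → ∀ (y : E₀), Transcendental A y →
    (∃ n : ℕ, Nonempty (Module.Basis (Fin n) (chartField A E₀ y) E₀)) →
    ∀ (𝔪 : Ideal (chartClosure A E₀ y⁻¹)), 𝔪.IsMaximal →
      algebraMap A (chartClosure A E₀ y⁻¹) ϖ ∈ 𝔪 →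
      (∃ s : chartClosure A E₀ y⁻¹, (s : E₀) = y⁻¹ ∧ s ∉ 𝔪) →
      ∃ 𝔪' : Ideal (chartClosure A E₀ y), 𝔪'.IsMaximal ∧
        algebraMap A (chartClosure A E₀ y) ϖ ∈ 𝔪' ∧
        ∀ V : ValuationSubring E₀, CentredAt A E₀ y⁻¹ 𝔪 V ↔ CentredAt A E₀ y 𝔪' V

/-- `PlaceGenAt` only depends on the set of places centred at the maximal ideal. -/
theorem placeGenAt_of_same_places {A : Type} [CommRing A] {E₀ : Type} [Field E₀] [Algebra A E₀]
    {y y' : E₀} {𝔪 : Ideal (chartClosure A E₀ y)} {𝔪' : Ideal (chartClosure A E₀ y')}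
    (h : ∀ V : ValuationSubring E₀, CentredAt A E₀ y 𝔪 V ↔ CentredAt A E₀ y' 𝔪' V)
    (hP : PlaceGenAt A E₀ y' 𝔪') : PlaceGenAt A E₀ y 𝔪 := by
  intro V hV hrat
  obtain ⟨t, ht, ht'⟩ := hP V ((h V).mp hV) hrat
  exact ⟨t, ht, fun V' hV' hne => ht' V' ((h V').mp hV') hne⟩

/-! ## The total statement -/

/-- **PLACE GENERATORS at level `M q`**: at every maximal ideal `𝔪 ∋ ϖ` of both charts. -/
def SSPlaceGenStatement (M q : ℕ) [NeZero M] [NeZero q] (x₀ : LaurentSeries ℚ)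
    (R₁ R₂ R₃ : ℕ) : Prop :=
  ∀ (K₁ : Type) [Field K₁] [Algebra ℚ K₁] [FiniteDimensional ℚ K₁]
    (A₀ : Type) [CommRing A₀] [IsDomain A₀] [IsDiscreteValuationRing A₀]
    [Algebra A₀ K₁] [IsFractionRing A₀ K₁]
    [Algebra A₀ (ModelField K₁ (M * q))] [IsScalarTower A₀ K₁ (ModelField K₁ (M * q))],
    ¬ IsUnit ((q : ℕ) : A₀) →
    (∃ ζ : K₁, IsPrimitiveRoot ζ R₁) → (∃ ζ : K₁, IsPrimitiveRoot ζ R₂) →
    (∃ ζ : K₁, IsPrimitiveRoot ζ R₃) →
    ∀ (ϖ : A₀), Irreducible ϖ →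
    ∀ (x : ModelField K₁ (M * q)), (x : LaurentSeries K₁) = coeffEmb K₁ x₀ →
    ∀ (y : ModelField K₁ (M * q)), y = x ∨ y = x⁻¹ →
    ∀ 𝔪 : Ideal (chartClosure A₀ (ModelField K₁ (M * q)) y), 𝔪.IsMaximal →
      algebraMap A₀ (chartClosure A₀ (ModelField K₁ (M * q)) y) ϖ ∈ 𝔪 →
      PlaceGenAt A₀ (ModelField K₁ (M * q)) y 𝔪

/-- **The three geometric rows and the chart transfer give the total statement.** -/
theorem ssPlaceGen_of_parts (M q : ℕ) [NeZero M] [NeZero q] (x₀ : LaurentSeries ℚ)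
    (R₁ R₂ R₃ : ℕ)
    (hTr : ModelTranscendentalStatement (M * q) x₀)
    (hFin : ModelFiniteStatement (M * q) x₀)
    (hW : ∀ (K₁ : Type) [Field K₁] [Algebra ℚ K₁] [FiniteDimensional ℚ K₁],
      ∃ W : ModelField K₁ (M * q) ≃ₐ[K₁] ModelField K₁ (M * q), IsAtkinLehnerModel K₁ M q W)
    (hCT : ChartTransferStatement)
    (hOrd : SSPlaceGenOrdStatement M q x₀ R₁)
    (hCross : SSPlaceGenCrossStatement M q x₀ R₂)
    (hCusp : SSPlaceGenCuspStatement M q x₀ R₃) :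
    SSPlaceGenStatement M q x₀ R₁ R₂ R₃ := by
  classical
  intro K₁ _ _ _ A₀ _ _ _ _ _ _ _ hq h1 h2 h3 ϖ hϖ x hx y hy 𝔪 h𝔪 hϖ𝔪
  obtain ⟨W, hWW⟩ := hW K₁
  have key : ∀ 𝔫 : Ideal (chartClosure A₀ (ModelField K₁ (M * q)) x), 𝔫.IsMaximal →
      algebraMap A₀ (chartClosure A₀ (ModelField K₁ (M * q)) x) ϖ ∈ 𝔫 →
      PlaceGenAt A₀ (ModelField K₁ (M * q)) x 𝔫 := by
    intro 𝔫 h𝔫 hϖ𝔫
    by_cases hc : SSOnInfty K₁ (M * q) A₀ ϖ x 𝔫 ∧ SSOnZero K₁ (M * q) A₀ ϖ W x 𝔫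
    · exact hCross K₁ A₀ hq h2 ϖ hϖ x hx W hWW 𝔫 h𝔫 hϖ𝔫 hc.1 hc.2
    · exact hOrd K₁ A₀ hq h1 ϖ hϖ x hx W hWW 𝔫 h𝔫 hϖ𝔫 hc
  rcases hy with rfl | rfl
  · exact key 𝔪 h𝔪 hϖ𝔪
  · by_cases hcusp : ∀ s : chartClosure A₀ (ModelField K₁ (M * q)) x⁻¹,
        (s : ModelField K₁ (M * q)) = x⁻¹ → s ∈ 𝔪
    · exact hCusp K₁ A₀ hq h3 ϖ hϖ x hx W hWW 𝔪 h𝔪 hϖ𝔪 hcusp
    · obtain ⟨s, hs⟩ := not_forall.mp hcusp
      rw [Classical.not_imp] at hs
      haveI : CharZero K₁ := charZero_of_injective_algebraMap (algebraMap ℚ K₁).injective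
      haveI : CharZero (ModelField K₁ (M * q)) :=
        charZero_of_injective_algebraMap (algebraMap K₁ (ModelField K₁ (M * q))).injective
      have hinj : Function.Injective (algebraMap A₀ (ModelField K₁ (M * q))) := by
        rw [IsScalarTower.algebraMap_eq A₀ K₁ (ModelField K₁ (M * q))]
        exact (algebraMap K₁ (ModelField K₁ (M * q))).injective.comp
          (IsFractionRing.injective A₀ K₁)
      obtain ⟨𝔪', h𝔪', hϖ𝔪', hsame⟩ := hCT A₀ (ModelField K₁ (M * q)) hinj ϖ hϖ x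
        (hTr K₁ A₀ x hx) (hFin K₁ A₀ x hx) 𝔪 h𝔪 hϖ𝔪 ⟨s, hs⟩
      exact placeGenAt_of_same_places hsame (key 𝔪' h𝔪' hϖ𝔪')

/-! ## The remaining model inputs of `ModelLocalPrincStatement` -/

/-- **`σ ≡ id` modulo `ϖ` on the Gauss closure** (by-product of row SSH-5): for `z ∈ C(x)`,
`σ z - z ∈ ϖ C(x)`.  (`z = a / b` with integral `q`-expansions, `b` primitive:
`σ z - z = (σ a b - a σ b) / (b σ b)`, numerator `≡ 0`, denominator primitive; the same after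
`W`, which commutes with `σ`; `ϖ C = 𝔪_∞ ∩ 𝔪_0`.) -/
def ModelSigmaCongrStatement (M q : ℕ) [NeZero M] [NeZero q] (x₀ : LaurentSeries ℚ) : Prop :=
  ∀ (K₁ : Type) [Field K₁] [Algebra ℚ K₁] [FiniteDimensional ℚ K₁]
    (A₀ : Type) [CommRing A₀] [IsDomain A₀] [IsDiscreteValuationRing A₀]
    [Algebra A₀ K₁] [IsFractionRing A₀ K₁]
    [Algebra A₀ (ModelField K₁ (M * q))] [IsScalarTower A₀ K₁ (ModelField K₁ (M * q))],
    ¬ IsUnit ((q : ℕ) : A₀) →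
    ∀ (ϖ : A₀), Irreducible ϖ →
    ∀ (x : ModelField K₁ (M * q)), (x : LaurentSeries K₁) = coeffEmb K₁ x₀ →
    ∀ (σ₁ : K₁ ≃ₐ[ℚ] K₁), IsModelInertia K₁ A₀ σ₁ →
    ∀ z ∈ gaussClosure A₀ (ModelField K₁ (M * q)) ϖ x,
      PiDvdSet A₀ (ModelField K₁ (M * q)) ϖ (gaussClosure A₀ (ModelField K₁ (M * q)) ϖ x)
        (modelSigma K₁ (M * q) σ₁ z - z)

/-- **Finiteness of zeros and poles** over a number field: a nonzero element of the model field
is a unit at all but finitely many places of `E₀ / K₁`. -/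
def ModelFiniteZerosStatement (N : ℕ) : Prop :=
  ∀ (K₁ : Type) [Field K₁] [Algebra ℚ K₁] [FiniteDimensional ℚ K₁]
    (f : ModelField K₁ N), f ≠ 0 →
    {P : Place K₁ (ModelField K₁ N) | P.ord f ≠ 0}.Finite

end Fermat.Agent.H45
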