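import Fermat.Agent.H45.SS.KLSSAbs

/-!
# P-SS : the abstract key lemma KL-SS for an arbitrary exponent (helper45)

* `klssAbs_idem` : in the setting of `klssAbs_noKummer` (any finite extension `E / E₀`, no
  degree hypothesis) every Kummer idempotent `ε_s = rinv ∑_{i<r} (s w)^i` is `≡ 0` or `≡ 1`
  modulo `ϖ C`.
* `klssAbs_const` : an `r`-th root `w₁ ∈ E₀` of `u ≡ 1` is congruent to ONE root of unity
  modulo `ϖ C` (the same on all components of the special fibre).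
* `LocalPrinc.of_mul`, `LocalPrinc.root` : local principalisation passes from `(r m', u)` to
  `(r, u)` and to `(m', w₁)` for `w₁ ^ r = u`.
* `klssAbs_general` : `u ≡ 1` modulo `ϖ C` with local principalisation of exponent `m` in both
  charts and an `m`-th root in `Ω` is `w₀ ^ m` with `w₀ ∈ E₀`, `w₀ ≡ 1` modulo `ϖ C`.
-/

set_option autoImplicit false
set_option linter.style.haveILetI false
set_option linter.unusedSectionVars false

noncomputable section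

namespace Fermat.Agent.H45

open Polynomial
open Fermat.Agent.H22.KL
open Fermat.Agent.H67.KLConn
open Fermat.Agent.H87.KL

section Idem

/-- **KL-SS, idempotent form.**  `E / E₀` finite, `w ∈ E` with `w ^ r = u ≡ 1`, local
principalisation in both charts of `E₀`, constants `B_E(x) ∩ B_E(x⁻¹) = A`.  Then every Kummer
idempotent `ε_s` (`s ^ r = 1`) is `≡ 0` or `≡ 1` modulo `ϖ C_E`. -/
theorem klssAbs_idem
    (A : Type) [CommRing A] [IsDomain A] [IsDiscreteValuationRing A]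
    (E₀ E : Type) [Field E₀] [Field E] [Algebra A E₀] [Algebra A E] [Algebra E₀ E]
    [IsScalarTower A E₀ E] [CharZero E₀] [FiniteDimensional E₀ E]
    (hinj : Function.Injective (algebraMap A E₀))
    (ϖ : A) (hϖ : Irreducible ϖ) (x : E₀) (hx : Transcendental A x)
    (hfd : ∃ n : ℕ, Nonempty (Module.Basis (Fin n) (chartField A E₀ x) E₀))
    (r : ℕ) (hr0 : 0 < r) (rinv : A) (hrinv : (r : A) * rinv = 1) (s : A) (hs : s ^ r = 1)
    (u : E₀) (w : E) (hw : w ^ r = algebraMap E₀ E u)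
    (huC : u ∈ gaussClosure A E₀ ϖ x)
    (hu1 : PiDvdSet A E₀ ϖ (gaussClosure A E₀ ϖ x) (u - 1))
    (hLf : LocalPrinc A E₀ ϖ x r u) (hLi : LocalPrinc A E₀ ϖ x⁻¹ r u)
    (hconst : ∀ z : E, z ∈ chartClosure A E (algebraMap E₀ E x) →
      z ∈ chartClosure A E (algebraMap E₀ E x)⁻¹ → z ∈ (algebraMap A E).range) :
    PiDvdSet A E ϖ (gaussClosure A E ϖ (algebraMap E₀ E x)) (klssIdem r rinv s w) ∨
      PiDvdSet A E ϖ (gaussClosure A E ϖ (algebraMap E₀ E x)) (klssIdem r rinv s w - 1) := by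
  have hϖp : Prime ϖ := hϖ.prime
  haveI : CharZero E := charZero_of_injective_algebraMap (algebraMap E₀ E).injective
  have hinjE : Function.Injective (algebraMap A E) := by
    rw [IsScalarTower.algebraMap_eq A E₀ E]
    exact (algebraMap E₀ E).injective.comp hinj
  have hX : Transcendental A (algebraMap E₀ E x) :=
    (transcendental_algebraMap_iff (algebraMap E₀ E).injective).mpr hx
  have hX0 : algebraMap E₀ E x ≠ 0 := by
    intro h0
    apply hX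
    rw [h0]
    exact isAlgebraic_zero
  have hxinv : Transcendental A x⁻¹ := fun h => hx (IsAlgebraic.inv_iff.mp h)
  have hXinv : Transcendental A (algebraMap E₀ E x)⁻¹ := fun h => hX (IsAlgebraic.inv_iff.mp h)
  have hmapinv : algebraMap E₀ E x⁻¹ = (algebraMap E₀ E x)⁻¹ := map_inv₀ _ x
  obtain ⟨hBC, hCring', hCinv⟩ :=
    Fermat.Agent.H89.gaussClosureStatement A E hinjE ϖ hϖ (algebraMap E₀ E x) hX
  obtain ⟨hBCi, -, -⟩ :=
    Fermat.Agent.H89.gaussClosureStatement A E hinjE ϖ hϖ (algebraMap E₀ E x)⁻¹ hXinv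
  rw [hCinv] at hBCi
  obtain ⟨hgen, hmidf, hmidi, hsat⟩ := Fermat.Agent.H85.chartBasics A E hinjE ϖ hϖ
    (algebraMap E₀ E x) hX (klss_exists_basis_tower x hfd)
  have hT := Fermat.Agent.H34.lemmaT A E hinjE ϖ hϖ
  obtain ⟨O, hO⟩ := klss_exists_gaussSub hinjE ϖ hϖ (algebraMap E₀ E x) hX
  have hOi : ∀ z, z ∈ O ↔ z ∈ gaussClosure A E ϖ (algebraMap E₀ E x⁻¹) := by
    intro z
    rw [hmapinv, hCinv]
    exact hO z
  have hRfO : chartClosure A E (algebraMap E₀ E x) ≤ O := fun z hz => (hO z).2 (hBC z hz)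
  have hRiO : chartClosure A E (algebraMap E₀ E x)⁻¹ ≤ O := fun z hz => (hO z).2 (hBCi z hz)
  have hRiO' : chartClosure A E (algebraMap E₀ E x⁻¹) ≤ O := by
    rw [hmapinv]; exact hRiO
  have hXf : algebraMap E₀ E x ∈ chartClosure A E (algebraMap E₀ E x) :=
    mem_chartClosure_of_mem_chartRing (Algebra.subset_adjoin (Set.mem_singleton _))
  have hXi : (algebraMap E₀ E x)⁻¹ ∈ chartClosure A E (algebraMap E₀ E x)⁻¹ :=
    mem_chartClosure_of_mem_chartRing (Algebra.subset_adjoin (Set.mem_singleton _))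
  have hsatf : ∀ z ∈ chartClosure A E (algebraMap E₀ E x), PiDvd ϖ O 1 z →
      PiDvd ϖ (chartClosure A E (algebraMap E₀ E x)) 1 z := fun z hz h =>
    hT (algebraMap E₀ E x) hX z hz ((klss_piDvd_iff hO).1 h)
  have hsati : ∀ z ∈ chartClosure A E (algebraMap E₀ E x)⁻¹, PiDvd ϖ O 1 z →
      PiDvd ϖ (chartClosure A E (algebraMap E₀ E x)⁻¹) 1 z := by
    intro z hz h
    refine hT (algebraMap E₀ E x)⁻¹ hXinv z hz ?_
    rw [hCinv]
    exact (klss_piDvd_iff hO).1 h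
  have hsatm : ∀ z ∈ chartClosure A E (algebraMap E₀ E x) ⊔
      chartClosure A E (algebraMap E₀ E x)⁻¹, PiDvd ϖ O 1 z →
      PiDvd ϖ (chartClosure A E (algebraMap E₀ E x) ⊔
        chartClosure A E (algebraMap E₀ E x)⁻¹) 1 z := by
    intro z hz h
    obtain ⟨k, hk⟩ := exists_pow_mul_mem (algebraMap E₀ E x)
      (chartClosure A E (algebraMap E₀ E x)) (chartClosure A E (algebraMap E₀ E x)⁻¹)
      hXf hmidi hz
    have hXkO : (algebraMap E₀ E x) ^ k ∈ O := hRfO (Subalgebra.pow_mem _ hXf k)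
    obtain ⟨c, hc, hcd⟩ := hsatf _ hk (h.mul_left hXkO)
    refine ⟨(algebraMap E₀ E x)⁻¹ ^ k * c, ?_, ?_⟩
    · exact Subalgebra.mul_mem _
        (Subalgebra.pow_mem _ ((le_sup_right : chartClosure A E (algebraMap E₀ E x)⁻¹ ≤ _) hXi) k)
        ((le_sup_left : chartClosure A E (algebraMap E₀ E x) ≤ _) hc)
    · have hXk0 : (algebraMap E₀ E x) ^ k ≠ 0 := pow_ne_zero k hX0
      have e1 : z = (algebraMap E₀ E x)⁻¹ ^ k * ((algebraMap E₀ E x) ^ k * z) := by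
        rw [inv_pow, ← mul_assoc, inv_mul_cancel₀ hXk0, one_mul]
      rw [e1, hcd, mul_smul_comm]
  have hwGC : GC ϖ (algebraMap E₀ E x) w := by
    refine GC.of_pow hϖp hr0 ?_
    rw [hw]
    exact ((mem_gaussClosure_iff hx ϖ u).1 huC).map_tower
  have hwO : w ∈ O := (hO w).2 ((mem_gaussClosure_iff hX ϖ w).2 hwGC)
  have hwr : PiDvd ϖ O 1 (w ^ r - 1) := by
    rw [klss_piDvd_iff hO, hw]
    have := klss_map_piDvdSet (E := E) hx hu1
    rwa [map_sub, map_one] at this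
  have hεO : klssIdem r rinv s w ∈ O := klssIdem_mem O r rinv s hwO
  have hε2 := klss_idem_sq ϖ O r rinv s hrinv hs hwO hwr
  have hlocf := klss_locf_of_localPrinc (E := E) ϖ x hx r hr0 rinv s u w hw O hO hRfO hLf hwO
  have hloci := klss_locf_of_localPrinc (E := E) ϖ x⁻¹ hxinv r hr0 rinv s u w hw O hOi hRiO'
    hLi hwO
  rw [hmapinv] at hloci
  have hSf := klss_map_chartClosure_le (A := A) (E := E) x
  have hSi := klss_map_chartClosure_le (A := A) (E := E) x⁻¹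
  rw [hmapinv] at hSi
  have hcap : ∀ z, z ∈ chartClosure A E (algebraMap E₀ E x) →
      z ∈ chartClosure A E (algebraMap E₀ E x)⁻¹ → ∃ α : A, algebraMap A E α = z :=
    fun z hz hz' => hconst z hz hz'
  have hmain := klss_main hϖp (mul_inv_cancel₀ hX0)
    (chartClosure A E (algebraMap E₀ E x)) (chartClosure A E (algebraMap E₀ E x)⁻¹)
    hXf hXi hgen hmidf hmidi hcap hsat O hRfO hRiO hsatf hsati hsatm
    ((chartClosure A E₀ x).map (IsScalarTower.toAlgHom A E₀ E))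
    ((chartClosure A E₀ x⁻¹).map (IsScalarTower.toAlgHom A E₀ E)) hSf hSi hεO hε2
    (fun 𝔪 h𝔪 hϖ𝔪 => hlocf 𝔪 h𝔪 hϖ𝔪) (fun 𝔪 h𝔪 hϖ𝔪 => hloci 𝔪 h𝔪 hϖ𝔪)
  rcases hmain with h | h
  · exact Or.inl ((klss_piDvd_iff hO).1 h)
  · exact Or.inr ((klss_piDvd_iff hO).1 h)

end Idem

section Const

/-- The Lagrange idempotents sum to `1` modulo `X ^ r - 1`. -/
theorem klss_sum_lagr {A : Type} [CommRing A] [IsDomain A] {ζ : A} {r : ℕ} (hr : 0 < r)
    (hζ : IsPrimitiveRoot ζ r) {rinv : A} (hrinv : rinv * (r : A) = 1) :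
    (X ^ r - 1 : A[X]) ∣ (∑ ρ ∈ nthRootsFinset r (1 : A), lagr rinv ρ r) - 1 := by
  classical
  refine X_pow_sub_one_dvd_of_eval hr hζ _ fun μ hμ => ?_
  rw [eval_sub, eval_one, eval_finsetSum, sub_eq_zero]
  rw [Finset.sum_eq_single (μ ^ (r - 1))]
  · refine eval_lagr_of_eq_one hrinv ?_
    rw [← pow_succ, Nat.sub_add_cancel hr, hμ]
  · intro ρ hρ hne
    have hρr : ρ ^ r = 1 := (mem_nthRootsFinset hr (1 : A)).1 hρ
    refine eval_lagr_of_ne_one (by rw [mul_pow, hρr, hμ, one_mul]) ?_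
    intro h
    apply hne
    calc ρ = ρ * μ ^ r := by rw [hμ, mul_one]
      _ = (ρ * μ) * μ ^ (r - 1) := by
          rw [mul_assoc, ← pow_succ', Nat.sub_add_cancel hr]
      _ = μ ^ (r - 1) := by rw [h, one_mul]
  · intro hnot
    exfalso
    apply hnot
    rw [mem_nthRootsFinset hr (1 : A), ← pow_mul, mul_comm, pow_mul, hμ, one_pow]

/-- **Constancy of the root of unity.**  An `r`-th root `w₁ ∈ E₀` of `u ≡ 1` (with local
principalisation of exponent `r` for `u`) is congruent modulo `ϖ C` to ONE `r`-th root of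
unity: `ρ w₁ ≡ 1` for some `ρ ∈ μ_r(A)`. -/
theorem klssAbs_const
    (A : Type) [CommRing A] [IsDomain A] [IsDiscreteValuationRing A]
    (E₀ Ω : Type) [Field E₀] [Field Ω] [Algebra A E₀] [Algebra A Ω] [Algebra E₀ Ω]
    [IsScalarTower A E₀ Ω] [CharZero E₀]
    (hinj : Function.Injective (algebraMap A E₀))
    (ϖ : A) (hϖ : Irreducible ϖ) (x : E₀) (hx : Transcendental A x)
    (hfd : ∃ n : ℕ, Nonempty (Module.Basis (Fin n) (chartField A E₀ x) E₀))
    (hΩ : ∀ z : Ω, IsIntegral A z → z ∈ (algebraMap A Ω).range)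
    (r : ℕ) (hr0 : 0 < r) (hru : IsUnit ((r : ℕ) : A)) (hζ : ∃ ζ : A, IsPrimitiveRoot ζ r)
    (u w₁ : E₀) (hw₁ : w₁ ^ r = u)
    (huC : u ∈ gaussClosure A E₀ ϖ x)
    (hu1 : PiDvdSet A E₀ ϖ (gaussClosure A E₀ ϖ x) (u - 1))
    (hLf : LocalPrinc A E₀ ϖ x r u) (hLi : LocalPrinc A E₀ ϖ x⁻¹ r u) :
    ∃ ρ : A, ρ ^ r = 1 ∧
      PiDvdSet A E₀ ϖ (gaussClosure A E₀ ϖ x) (algebraMap A E₀ ρ * w₁ - 1) := by
  classical
  have hϖp : Prime ϖ := hϖ.prime
  obtain ⟨ζ, hζ⟩ := hζ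
  obtain ⟨rinv, hrinv'⟩ := hru.exists_left_inv
  have hrinv : rinv * (r : A) = 1 := hrinv'
  have hru' : (r : A) * rinv = 1 := by rw [mul_comm]; exact hrinv
  obtain ⟨hBC, hCring', -⟩ := Fermat.Agent.H89.gaussClosureStatement A E₀ hinj ϖ hϖ x hx
  have hCring : IsRingLike (gaussClosure A E₀ ϖ x) :=
    ⟨fun y hy z hz => (hCring' y hy z hz).1, fun y hy z hz => (hCring' y hy z hz).2.1,
      fun y hy => (hCring' y hy y hy).2.2⟩
  -- constants
  have hconst : ∀ z : E₀, z ∈ chartClosure A E₀ (algebraMap E₀ E₀ x) →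
      z ∈ chartClosure A E₀ (algebraMap E₀ E₀ x)⁻¹ → z ∈ (algebraMap A E₀).range := by
    intro z hz hz'
    have hzint : IsIntegral A z :=
      Fermat.Agent.H95.KL.chartConstStatement A E₀ hinj x hx z hz hz'
    have hzΩ : IsIntegral A (algebraMap E₀ Ω z) := by
      obtain ⟨p, hp, hpz⟩ := hzint
      refine ⟨p, hp, ?_⟩
      have h1 := Polynomial.hom_eval₂ p (algebraMap A E₀) (algebraMap E₀ Ω) z
      rw [hpz, map_zero] at h1
      rw [← IsScalarTower.algebraMap_eq A E₀ Ω] at h1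
      exact h1.symm
    obtain ⟨α, hα⟩ := hΩ _ hzΩ
    refine ⟨α, (algebraMap E₀ Ω).injective ?_⟩
    rw [← hα, ← IsScalarTower.algebraMap_apply A E₀ Ω]
  have hidem : ∀ ρ : A, ρ ^ r = 1 →
      PiDvdSet A E₀ ϖ (gaussClosure A E₀ ϖ x) (klssIdem r rinv ρ w₁) ∨
        PiDvdSet A E₀ ϖ (gaussClosure A E₀ ϖ x) (klssIdem r rinv ρ w₁ - 1) := fun ρ hρ =>
    klssAbs_idem A E₀ E₀ hinj ϖ hϖ x hx hfd r hr0 rinv hru' ρ hρ u w₁ hw₁ huC hu1 hLf hLi hconst
  -- `w₁ ∈ C`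
  have hw₁GC : GC ϖ x w₁ := by
    refine GC.of_pow hϖp hr0 ?_
    rw [hw₁]
    exact (mem_gaussClosure_iff hx ϖ u).1 huC
  have hw₁C : w₁ ∈ gaussClosure A E₀ ϖ x := (mem_gaussClosure_iff hx ϖ w₁).2 hw₁GC
  have hpolyC : ∀ P : A[X], aeval w₁ P ∈ gaussClosure A E₀ ϖ x := fun P =>
    (mem_gaussClosure_iff hx ϖ _).2 (hw₁GC.poly hϖp P)
  -- some idempotent is `≡ 1`
  have hex : ∃ ρ : A, ρ ^ r = 1 ∧
      PiDvdSet A E₀ ϖ (gaussClosure A E₀ ϖ x) (klssIdem r rinv ρ w₁ - 1) := by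
    by_contra hno
    have hall : ∀ ρ ∈ nthRootsFinset r (1 : A),
        PiDvdSet A E₀ ϖ (gaussClosure A E₀ ϖ x) (klssIdem r rinv ρ w₁) := by
      intro ρ hρ
      have hρr : ρ ^ r = 1 := (mem_nthRootsFinset hr0 (1 : A)).1 hρ
      rcases hidem ρ hρr with h | h
      · exact h
      · exact absurd ⟨ρ, hρr, h⟩ hno
    have hsum : PiDvdSet A E₀ ϖ (gaussClosure A E₀ ϖ x)
        (∑ ρ ∈ nthRootsFinset r (1 : A), klssIdem r rinv ρ w₁) := by
      refine Finset.sum_induction _ (fun z => PiDvdSet A E₀ ϖ (gaussClosure A E₀ ϖ x) z)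
        (fun _ _ h h' => h.add hCring h') ?_ hall
      exact ⟨0, hBC 0 (chartClosure A E₀ x).zero_mem, by simp⟩
    obtain ⟨Q, hQ⟩ := klss_sum_lagr hr0 hζ hrinv
    have h1 := congrArg (aeval w₁) hQ
    rw [map_sub, map_one, map_sum, map_mul, map_sub, map_pow, aeval_X, map_one, hw₁] at h1
    have h2 : (1 : E₀) = (∑ ρ ∈ nthRootsFinset r (1 : A), klssIdem r rinv ρ w₁)
        - (u - 1) * aeval w₁ Q := by
      have e : ∑ ρ ∈ nthRootsFinset r (1 : A), klssIdem r rinv ρ w₁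
          = ∑ ρ ∈ nthRootsFinset r (1 : A), aeval w₁ (lagr rinv ρ r) :=
        Finset.sum_congr rfl fun ρ _ => klssIdem_eq_aeval_lagr r rinv ρ w₁
      rw [e]
      linear_combination -h1
    apply not_piDvdSet_one hx hϖp
    rw [h2]
    exact hsum.sub hCring (hu1.mul_right hCring (hpolyC Q))
  obtain ⟨ρ, hρ, h1⟩ := hex
  refine ⟨ρ, hρ, ?_⟩
  have hεC : klssIdem r rinv ρ w₁ ∈ gaussClosure A E₀ ϖ x := by
    rw [klssIdem_eq_aeval_lagr]
    exact hpolyC _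
  have hmul := klssIdem_mul r rinv ρ hρ w₁
  rw [hw₁] at hmul
  have hsw : ρ • w₁ - 1 ∈ gaussClosure A E₀ ϖ x := by
    have : ρ • w₁ - 1 = aeval w₁ (C ρ * X - 1) := by
      simp [Algebra.smul_def]
    rw [this]
    exact hpolyC _
  have e : algebraMap A E₀ ρ * w₁ - 1 =
      rinv • (u - 1) - (ρ • w₁ - 1) * (klssIdem r rinv ρ w₁ - 1) := by
    rw [← hmul, Algebra.smul_def]
    ring
  rw [e]
  refine PiDvdSet.sub hCring ?_ (h1.mul_left hCring hsw)
  obtain ⟨c, hc, hcu⟩ := hu1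
  refine ⟨algebraMap A E₀ rinv * c, hCring.mul _ (hBC _ ((chartClosure A E₀ x).algebraMap_mem _))
    _ hc, ?_⟩
  rw [hcu, Algebra.smul_def]
  ring

end Const

section General

variable {A : Type} [CommRing A] [IsDomain A] [IsDiscreteValuationRing A]
  {E₀ : Type} [Field E₀] [Algebra A E₀]

/-- Powers of elements `≡ 1` modulo `ϖ C` are `≡ 1`. -/
theorem klss_pow_sub_one (hinj : Function.Injective (algebraMap A E₀)) {ϖ : A}
    (hϖ : Irreducible ϖ) {y : E₀} (hy : Transcendental A y) {H : E₀}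
    (hHC : H ∈ gaussClosure A E₀ ϖ y)
    (hH1 : PiDvdSet A E₀ ϖ (gaussClosure A E₀ ϖ y) (H - 1)) (n : ℕ) :
    H ^ n ∈ gaussClosure A E₀ ϖ y ∧ PiDvdSet A E₀ ϖ (gaussClosure A E₀ ϖ y) (H ^ n - 1) := by
  obtain ⟨hBC, hCring', -⟩ := Fermat.Agent.H89.gaussClosureStatement A E₀ hinj ϖ hϖ y hy
  have hCring : IsRingLike (gaussClosure A E₀ ϖ y) :=
    ⟨fun y hy z hz => (hCring' y hy z hz).1, fun y hy z hz => (hCring' y hy z hz).2.1,
      fun y hy => (hCring' y hy y hy).2.2⟩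
  induction n with
  | zero =>
    refine ⟨by simpa using hBC 1 (chartClosure A E₀ y).one_mem, ?_⟩
    exact ⟨0, hBC 0 (chartClosure A E₀ y).zero_mem, by simp⟩
  | succ k ih =>
    refine ⟨by rw [pow_succ]; exact hCring.mul _ ih.1 _ hHC, ?_⟩
    have e : H ^ (k + 1) - 1 = H ^ k * (H - 1) + (H ^ k - 1) := by ring
    rw [e]
    exact (hH1.mul_left hCring ih.1).add hCring ih.2

/-- Local principalisation of exponent `r * m'` gives local principalisation of exponent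
`r`. -/
theorem LocalPrinc.of_mul (hinj : Function.Injective (algebraMap A E₀)) {ϖ : A}
    (hϖ : Irreducible ϖ) {y : E₀} (hy : Transcendental A y) {r m' : ℕ} {u : E₀}
    (h : LocalPrinc A E₀ ϖ y (r * m') u) : LocalPrinc A E₀ ϖ y r u := by
  intro 𝔪 h𝔪 hϖ𝔪
  obtain ⟨Hinv, hHC, hH1, b, hb, hbu⟩ := h 𝔪 h𝔪 hϖ𝔪
  obtain ⟨h1, h2⟩ := klss_pow_sub_one hinj hϖ hy hHC hH1 m'
  refine ⟨Hinv ^ m', h1, h2, b, hb, ?_⟩
  rw [← pow_mul, mul_comm m' r]
  exact hbu

/-- Local principalisation of exponent `r * m'` for `u = w₁ ^ r` gives local principalisation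
of exponent `m'` for `w₁`. -/
theorem LocalPrinc.root {ϖ : A} {y : E₀} {r m' : ℕ} (hr : 0 < r) {u w₁ : E₀}
    (hw₁ : w₁ ^ r = u) (h : LocalPrinc A E₀ ϖ y (r * m') u) : LocalPrinc A E₀ ϖ y m' w₁ := by
  intro 𝔪 h𝔪 hϖ𝔪
  obtain ⟨Hinv, hHC, hH1, b, hb, hbu⟩ := h 𝔪 h𝔪 hϖ𝔪
  refine ⟨Hinv, hHC, hH1, b, hb, ?_⟩
  have hpow : ((b : E₀) * (w₁ * Hinv ^ m')) ^ r =
      (b : E₀) ^ (r - 1) * ((b : E₀) * (u * Hinv ^ (r * m'))) := by
    obtain ⟨k, rfl⟩ : ∃ k, r = k + 1 := ⟨r - 1, by omega⟩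
    rw [Nat.add_sub_cancel, ← hw₁, mul_pow, mul_pow, ← pow_mul, mul_comm m' (k + 1), pow_succ]
    ring
  have hmem : ((b : E₀) * (w₁ * Hinv ^ m')) ^ r ∈ chartClosure A E₀ y := by
    rw [hpow]
    exact Subalgebra.mul_mem _ (Subalgebra.pow_mem _ b.2 _) hbu
  exact (mem_chartClosure_iff _ _).2 (IntX.of_pow hr ((mem_chartClosure_iff _ _).1 hmem))

end General

section Main

/-- **KL-SS, abstract form, arbitrary exponent.**  `E₀ ⊆ Ω` with `A` integrally closed in `Ω`,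
`m > 0` a unit of `A`, `ζ ∈ A` a primitive `m`-th root of unity, `u ∈ E₀` with `u ≡ 1` modulo
`ϖ C(x)`, an `m`-th root in `Ω`, and local principalisation of exponent `m` in both charts.
Then `u = w₀ ^ m` with `w₀ ∈ E₀`, `w₀ ≡ 1` modulo `ϖ C(x)`. -/
theorem klssAbs_general
    (A : Type) [CommRing A] [IsDomain A] [IsDiscreteValuationRing A]
    (E₀ Ω : Type) [Field E₀] [Field Ω] [Algebra A E₀] [Algebra A Ω] [Algebra E₀ Ω]
    [IsScalarTower A E₀ Ω] [CharZero E₀]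
    (hinj : Function.Injective (algebraMap A E₀))
    (ϖ : A) (hϖ : Irreducible ϖ) (x : E₀) (hx : Transcendental A x)
    (hfd : ∃ n : ℕ, Nonempty (Module.Basis (Fin n) (chartField A E₀ x) E₀))
    (hΩ : ∀ z : Ω, IsIntegral A z → z ∈ (algebraMap A Ω).range)
    (m : ℕ) (hm : 0 < m) (hmu : IsUnit ((m : ℕ) : A)) (ζ : A) (hζ : IsPrimitiveRoot ζ m)
    (u : E₀) (huC : u ∈ gaussClosure A E₀ ϖ x)
    (hu1 : PiDvdSet A E₀ ϖ (gaussClosure A E₀ ϖ x) (u - 1))
    (hLf : LocalPrinc A E₀ ϖ x m u) (hLi : LocalPrinc A E₀ ϖ x⁻¹ m u)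
    (hw : ∃ w : Ω, w ^ m = algebraMap E₀ Ω u) :
    ∃ w₀ : E₀, w₀ ^ m = u ∧ PiDvdSet A E₀ ϖ (gaussClosure A E₀ ϖ x) (w₀ - 1) := by
  have hϖp : Prime ϖ := hϖ.prime
  have hxinv : Transcendental A x⁻¹ := fun h => hx (IsAlgebraic.inv_iff.mp h)
  obtain ⟨hBC, hCring', -⟩ := Fermat.Agent.H89.gaussClosureStatement A E₀ hinj ϖ hϖ x hx
  have hCring : IsRingLike (gaussClosure A E₀ ϖ x) :=
    ⟨fun y hy z hz => (hCring' y hy z hz).1, fun y hy z hz => (hCring' y hy z hz).2.1,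
      fun y hy => (hCring' y hy y hy).2.2⟩
  have hinjΩ : Function.Injective (algebraMap A Ω) := by
    rw [IsScalarTower.algebraMap_eq A E₀ Ω]
    exact (algebraMap E₀ Ω).injective.comp hinj
  induction m using Nat.strong_induction_on generalizing ζ u with
  | _ m ih =>
  by_cases h1 : m = 1
  · subst h1
    exact ⟨u, pow_one u, hu1⟩
  · obtain ⟨r, hr, m', hm'⟩ : ∃ r : ℕ, r.Prime ∧ ∃ m' : ℕ, m = r * m' :=
      ⟨m.minFac, Nat.minFac_prime h1, Nat.minFac_dvd m⟩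
    subst hm'
    have hm'0 : 0 < m' := Nat.pos_of_mul_pos_left hm
    have hm'lt : m' < r * m' := by
      have := hr.two_le
      nlinarith
    have hcast : ((r * m' : ℕ) : A) = (r : A) * (m' : A) := by push_cast; ring
    rw [hcast] at hmu
    have hru : IsUnit ((r : ℕ) : A) := isUnit_of_mul_isUnit_left hmu
    have hm'u : IsUnit ((m' : ℕ) : A) := isUnit_of_mul_isUnit_right hmu
    have hζr : IsPrimitiveRoot (ζ ^ m') r := hζ.pow hm (mul_comm r m')
    have hζm' : IsPrimitiveRoot (ζ ^ r) m' := hζ.pow hm rfl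
    obtain ⟨w, hw⟩ := hw
    -- step 1: an `r`-th root in `E₀`
    have hLf_r := LocalPrinc.of_mul hinj hϖ hx hLf
    have hLi_r := LocalPrinc.of_mul hinj hϖ hxinv hLi
    obtain ⟨w₁, hw₁⟩ := klssAbs_prime A E₀ Ω hinj ϖ hϖ x hx hfd hΩ r hr hru ⟨ζ ^ m', hζr⟩ u
      huC hu1 hLf_r hLi_r ⟨w ^ m', by rw [← pow_mul, mul_comm m' r, hw]⟩
    -- step 2: normalise the root of unity
    obtain ⟨ρ, hρ, hρw⟩ := klssAbs_const A E₀ Ω hinj ϖ hϖ x hx hfd hΩ r hr.pos hru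
      ⟨ζ ^ m', hζr⟩ u w₁ hw₁ huC hu1 hLf_r hLi_r
    have hw₁' : (algebraMap A E₀ ρ * w₁) ^ r = u := by
      rw [mul_pow, ← map_pow, hρ, map_one, one_mul, hw₁]
    have hw₁'C : algebraMap A E₀ ρ * w₁ ∈ gaussClosure A E₀ ϖ x :=
      (mem_gaussClosure_iff hx ϖ _).2 (GC.of_pow hϖp hr.pos
        (by rw [hw₁']; exact (mem_gaussClosure_iff hx ϖ u).1 huC))
    -- step 3: local principalisation for the root
    have hLf' := LocalPrinc.root hr.pos hw₁' hLf
    have hLi' := LocalPrinc.root hr.pos hw₁' hLi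
    -- step 4: an `m'`-th root of the root in `Ω`
    have hu0 : u ≠ 0 := by
      rintro rfl
      apply not_piDvdSet_one hx hϖp
      have := hu1.neg hCring
      simpa using this
    have hW₁0 : algebraMap E₀ Ω (algebraMap A E₀ ρ * w₁) ≠ 0 := by
      intro h
      apply hu0
      rw [← hw₁', (_root_.map_eq_zero _).1 h, zero_pow hr.ne_zero]
    have hθ : (w ^ m' / algebraMap E₀ Ω (algebraMap A E₀ ρ * w₁)) ^ r = 1 := by
      rw [div_pow, ← pow_mul, mul_comm m' r, hw, ← map_pow, hw₁', div_self]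
      exact (_root_.map_ne_zero _).2 hu0
    have hζΩ : IsPrimitiveRoot (algebraMap A Ω (ζ ^ m')) r := hζr.map_of_injective hinjΩ
    haveI : NeZero r := ⟨hr.ne_zero⟩
    obtain ⟨k, -, hk⟩ := hζΩ.eq_pow_of_pow_eq_one hθ
    have hζ0 : algebraMap A Ω ζ ≠ 0 := by
      intro h
      have h2 : (algebraMap A Ω ζ) ^ (r * m') = 1 := by rw [← map_pow, hζ.pow_eq_one, map_one]
      rw [h, zero_pow hm.ne'] at h2
      exact zero_ne_one h2
    have hroot : ∃ w₂ : Ω, w₂ ^ m' = algebraMap E₀ Ω (algebraMap A E₀ ρ * w₁) := by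
      refine ⟨w / (algebraMap A Ω ζ) ^ k, ?_⟩
      have h3 : w ^ m' = (algebraMap A Ω (ζ ^ m')) ^ k *
          algebraMap E₀ Ω (algebraMap A E₀ ρ * w₁) := (div_eq_iff hW₁0).1 hk.symm
      have h4 : ((algebraMap A Ω ζ) ^ k) ^ m' = (algebraMap A Ω (ζ ^ m')) ^ k := by
        rw [map_pow, ← pow_mul, ← pow_mul, mul_comm]
      rw [div_pow, h3, h4, mul_comm, mul_div_assoc, div_self (pow_ne_zero _ ?_), mul_one]
      rw [map_pow]
      exact pow_ne_zero _ hζ0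
    -- step 5: induction
    obtain ⟨w₀, hw₀, hw₀1⟩ := ih m' hm'lt hm'0 hm'u (ζ ^ r) hζm' (algebraMap A E₀ ρ * w₁)
      hw₁'C hρw hLf' hLi' hroot
    exact ⟨w₀, by rw [pow_mul', hw₀, hw₁'], hw₀1⟩

end Main

end Fermat.Agent.H45
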