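import Fermat.Agent.H45.SS.LocalGen
import Fermat.Agent.H31.SS.Separate

/-!
# P-SS hard half : from the TUBE form to `PlaceGenAt` (helper45)

The point rows (ordinary points, cusps, crossing points) produce, at a maximal ideal `𝔪 ∋ ϖ` of
`B(y)`, an element `u ∈ B(y) ∩ 𝔪` with the TUBE PROPERTY: for every place `V` centred at `𝔪`
and every `c : A` with `u - ϖ c ∈ 𝔪_V`, the function `u - ϖ c` is a uniformiser of `V`, and `V`
is the only place centred at `𝔪` at which `u - ϖ c` vanishes.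

* `ss_exists_value` : at a RATIONAL place `V` centred at `𝔪`, every `u ∈ B(y) ∩ 𝔪` has a value
  `ϖ c ∈ ϖ A` (`u - ϖ c ∈ 𝔪_V`).
* `HasTubeAt A E₀ ϖ y 𝔪 u` : the tube property.
* `placeGenAt_of_tube` : the tube property gives `PlaceGenAt A E₀ y 𝔪`.
-/

set_option autoImplicit false
set_option linter.style.haveILetI false
set_option linter.unusedSectionVars false

noncomputable section

namespace Fermat.Agent.H45

open Fermat.Agent.H22.KL
open Fermat.Agent.H88.KLB

/-- **The TUBE PROPERTY** of `u ∈ B(y)` at the maximal ideal `𝔪`: for every place `V` centred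
at `𝔪` and every `c : A` with `u - ϖ c ∈ 𝔪_V`, the function `u - ϖ c` is a uniformiser of `V`
and vanishes at no other place centred at `𝔪`. -/
def HasTubeAt (A : Type) [CommRing A] (E₀ : Type) [Field E₀] [Algebra A E₀] (ϖ : A) (y : E₀)
    (𝔪 : Ideal (chartClosure A E₀ y)) (u : E₀) : Prop :=
  ∀ V : ValuationSubring E₀, CentredAt A E₀ y 𝔪 V → ∀ c : A,
    u - algebraMap A E₀ (ϖ * c) ∈ V.nonunits →
    IsUniformiser E₀ V (u - algebraMap A E₀ (ϖ * c)) ∧
    ∀ V' : ValuationSubring E₀, CentredAt A E₀ y 𝔪 V' →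
      u - algebraMap A E₀ (ϖ * c) ∈ V'.nonunits → V' = V

section

variable {A : Type} [CommRing A] [IsDomain A] [IsDiscreteValuationRing A]
  {E₀ : Type} [Field E₀] [Algebra A E₀]

/-- **The value of `u ∈ 𝔪` at a rational place centred at `𝔪` lies in `ϖ A`.** -/
theorem ss_exists_value (hinj : Function.Injective (algebraMap A E₀))
    (ϖ : A) (hϖ : Irreducible ϖ) (y : E₀)
    (𝔪 : Ideal (chartClosure A E₀ y)) (h𝔪 : 𝔪.IsMaximal)
    (hϖ𝔪 : algebraMap A (chartClosure A E₀ y) ϖ ∈ 𝔪)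
    {V : ValuationSubring E₀} (hV : CentredAt A E₀ y 𝔪 V) (hrat : IsRationalPlace A E₀ V)
    (u : chartClosure A E₀ y) (hu : u ∈ 𝔪) :
    ∃ c : A, (u : E₀) - algebraMap A E₀ (ϖ * c) ∈ V.nonunits := by
  have huV : (u : E₀) ∈ V := Fermat.Agent.H31.SS.mem_of_mem_chartClosure hV.1 u.2
  obtain ⟨a, b, hb, hab⟩ := hrat (u : E₀) huV
  have hne1 : (1 : chartClosure A E₀ y) ∉ 𝔪 := fun h =>
    h𝔪.ne_top ((Ideal.eq_top_iff_one 𝔪).mpr h)
  have hne0 : ∀ d : A, d ≠ 0 → algebraMap A E₀ d ≠ 0 := fun d hd h0 =>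
    hd (hinj (by rw [h0, map_zero]))
  -- non-units of `A` lie in `𝔪`
  have hnonunit : ∀ d : A, ¬ IsUnit d → algebraMap A (chartClosure A E₀ y) d ∈ 𝔪 := by
    intro d hd
    have hd' : d ∈ IsLocalRing.maximalIdeal A := (IsLocalRing.mem_maximalIdeal d).mpr hd
    rw [hϖ.maximalIdeal_eq, Ideal.mem_span_singleton'] at hd'
    obtain ⟨e, rfl⟩ := hd'
    rw [map_mul]
    exact 𝔪.mul_mem_left _ hϖ𝔪
  -- either the value lies in `A`, or it is the inverse of a non-unit
  have hcases : (∃ κ : A, a = b * κ) ∨ (∃ d : A, ¬ IsUnit d ∧ b = a * d) := by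
    rcases ValuationRing.dvd_total b a with ⟨κ, hκ⟩ | ⟨d, hd⟩
    · exact Or.inl ⟨κ, hκ⟩
    · by_cases hdu : IsUnit d
      · obtain ⟨e, he⟩ := hdu.exists_right_inv
        refine Or.inl ⟨e, ?_⟩
        rw [hd, mul_assoc, he, mul_one]
      · exact Or.inr ⟨d, hdu, hd⟩
  rcases hcases with ⟨κ, hκ⟩ | ⟨d, hdu, hd⟩
  · have hval : algebraMap A E₀ a / algebraMap A E₀ b = algebraMap A E₀ κ := by
      rw [hκ, map_mul, mul_div_cancel_left₀ _ (hne0 b hb)]
    rw [hval] at hab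
    have hmem : u - algebraMap A (chartClosure A E₀ y) κ ∈ 𝔪 := hV.2 _ hab
    have hκ𝔪 : algebraMap A (chartClosure A E₀ y) κ ∈ 𝔪 := by
      have := 𝔪.sub_mem hu hmem
      rwa [sub_sub_cancel] at this
    have hκnu : ¬ IsUnit κ := by
      intro hκu
      apply hne1
      have h1 : IsUnit (algebraMap A (chartClosure A E₀ y) κ) := hκu.map _
      obtain ⟨w, hw⟩ := h1.exists_left_inv
      rw [← hw]
      exact 𝔪.mul_mem_left _ hκ𝔪
    have hκ' : κ ∈ IsLocalRing.maximalIdeal A := (IsLocalRing.mem_maximalIdeal κ).mpr hκnu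
    rw [hϖ.maximalIdeal_eq, Ideal.mem_span_singleton'] at hκ'
    obtain ⟨c, hc⟩ := hκ'
    refine ⟨c, ?_⟩
    rw [mul_comm, hc]
    exact hab
  · exfalso
    have ha0 : a ≠ 0 := by
      rintro rfl
      exact hb (by rw [hd, zero_mul])
    have hd0 : d ≠ 0 := by
      rintro rfl
      exact hb (by rw [hd, mul_zero])
    have hD0 := hne0 d hd0
    have hval : algebraMap A E₀ a / algebraMap A E₀ b = (algebraMap A E₀ d)⁻¹ := by
      rw [hd, map_mul, div_mul_cancel_left₀ (hne0 a ha0)]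
    rw [hval] at hab
    have hDV : algebraMap A E₀ d ∈ V := (hV.1.1.2.2 d hd0).1
    have h1 : algebraMap A E₀ d * (u : E₀) - 1 ∈ V.nonunits := by
      have e : algebraMap A E₀ d * (u : E₀) - 1
          = algebraMap A E₀ d * ((u : E₀) - (algebraMap A E₀ d)⁻¹) := by
        rw [mul_sub, mul_inv_cancel₀ hD0]
      rw [e, (presents_valuation V).mem_nonunits, map_mul]
      have h2 : V.valuation (algebraMap A E₀ d) ≤ 1 := (V.valuation_le_one_iff _).mpr hDV
      have h3 : V.valuation ((u : E₀) - (algebraMap A E₀ d)⁻¹) < 1 :=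
        (presents_valuation V).mem_nonunits.mp hab
      exact mul_lt_one_of_nonneg_of_lt_one_right h2 zero_le h3
    have hmem : algebraMap A (chartClosure A E₀ y) d * u - 1 ∈ 𝔪 := hV.2 _ h1
    have h4 : algebraMap A (chartClosure A E₀ y) d * u ∈ 𝔪 := 𝔪.mul_mem_right _ (hnonunit d hdu)
    have := 𝔪.sub_mem h4 hmem
    rw [sub_sub_cancel] at this
    exact hne1 this

/-- **From the tube property to place generators.** -/
theorem placeGenAt_of_tube (hinj : Function.Injective (algebraMap A E₀))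
    (ϖ : A) (hϖ : Irreducible ϖ) (y : E₀)
    (𝔪 : Ideal (chartClosure A E₀ y)) (h𝔪 : 𝔪.IsMaximal)
    (hϖ𝔪 : algebraMap A (chartClosure A E₀ y) ϖ ∈ 𝔪)
    (u : chartClosure A E₀ y) (hu : u ∈ 𝔪)
    (htube : HasTubeAt A E₀ ϖ y 𝔪 (u : E₀)) :
    PlaceGenAt A E₀ y 𝔪 := by
  intro V hV hrat
  obtain ⟨c, hc⟩ := ss_exists_value hinj ϖ hϖ y 𝔪 h𝔪 hϖ𝔪 hV hrat u hu
  obtain ⟨hunif, huniq⟩ := htube V hV c hc
  refine ⟨_, hunif, fun V' hV' hne => ?_⟩
  have htB : (u : E₀) - algebraMap A E₀ (ϖ * c) ∈ chartClosure A E₀ y :=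
    Subalgebra.sub_mem _ u.2 (Subalgebra.algebraMap_mem _ _)
  have htV' : (u : E₀) - algebraMap A E₀ (ϖ * c) ∈ V' :=
    Fermat.Agent.H31.SS.mem_of_mem_chartClosure hV'.1 htB
  refine ⟨htV', ?_⟩
  by_contra hinv
  apply hne
  apply huniq V' hV'
  rw [ValuationSubring.mem_nonunits_iff_or]
  rcases eq_or_ne ((u : E₀) - algebraMap A E₀ (ϖ * c)) 0 with h0 | h0
  · exact Or.inl h0
  · exact Or.inr hinv

end

end Fermat.Agent.H45
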