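import Mathlib
import Fermat.Agent.H67.SS.CuspAbs
import Fermat.Agent.H41.SS.OrdPoint

/-!
# P-SS : change of chart for the regularity of a model, core lemmas (helper45)

Abstract (chart language of `Fermat.Agent.H22.KL`).  `A` a discrete valuation ring with
uniformiser `ϖ`, `E` a field over `A`, `B(y)` the integral closure of `A[y]` in `E`.

Two charts `y`, `y'` with `y' ∈ B(y)`, and `d ∈ B(y')`, `d ≠ 0`, `d⁻¹ ∈ B(y)`,
`d ^ n₀ * y ∈ B(y')` (so that `B(y) = B(y')[1 / d]`).

* `cc_exists_pow_mul_mem` : for `z ∈ B(y)` some `d ^ n * z` lies in `B(y')`.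
* `cc_comap_isMaximal` : the contraction to `B(y')` of a maximal ideal `𝔫 ∋ ϖ` of `B(y)` is
  maximal.
* `cc_reg_transfer_gen` : general transfer of the regularity statement (used in
  `Fermat.Agent.H45.SS.ChartChange`).
-/

set_option autoImplicit false
set_option linter.unusedSectionVars false
set_option linter.style.haveILetI false

noncomputable section

namespace Fermat.Agent.H45

open Polynomial
open Fermat.Agent.H22.KL
open Fermat.Agent.H87.KL (evX IntX)

section Basic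

variable {A : Type} [CommRing A] {E : Type} [Field E] [Algebra A E]

/-- A root of a monic polynomial with coefficients in `B(y')` lies in `B(y')`. -/
theorem cc_mem_of_monic_coeff_mem (y' : E) (Q : E[X]) (hQ : Q.Monic)
    (hc : ∀ i, Q.coeff i ∈ chartClosure A E y') (w : E) (hw : Q.eval w = 0) :
    w ∈ chartClosure A E y' := by
  show IsIntegral (chartRing A E y') w
  have hl : Q ∈ Polynomial.lifts (algebraMap (integralClosure (chartRing A E y') E) E) := by
    rw [Polynomial.lifts_iff_coeff_lifts]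
    intro i
    exact ⟨⟨Q.coeff i, hc i⟩, rfl⟩
  obtain ⟨q, hqm, -, hqmon⟩ := Polynomial.lifts_and_natDegree_eq_and_monic hl hQ
  have hint : IsIntegral (integralClosure (chartRing A E y') E) w :=
    ⟨q, hqmon, by rw [← Polynomial.eval_map, hqm]; exact hw⟩
  exact isIntegral_trans w hint

/-- `d ^ m * c(y) ∈ B(y')` for `m` large. -/
theorem cc_pow_mul_aeval_mem (y y' d : E) (hd : d ∈ chartClosure A E y') (n₀ : ℕ)
    (hyd : d ^ n₀ * y ∈ chartClosure A E y') (c : A[X]) :
    ∃ n : ℕ, ∀ m, n ≤ m → d ^ m * aeval y c ∈ chartClosure A E y' := by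
  induction c using Polynomial.induction_on' with
  | add p q hp hq =>
    obtain ⟨n₁, h₁⟩ := hp
    obtain ⟨n₂, h₂⟩ := hq
    refine ⟨max n₁ n₂, fun m hm => ?_⟩
    rw [map_add, mul_add]
    exact add_mem (h₁ m (le_trans (le_max_left _ _) hm)) (h₂ m (le_trans (le_max_right _ _) hm))
  | monomial i a =>
    refine ⟨n₀ * i, fun m hm => ?_⟩
    obtain ⟨k, rfl⟩ := Nat.exists_eq_add_of_le hm
    have e : d ^ (n₀ * i + k) * aeval y (monomial i a)
        = algebraMap A E a * (d ^ k * (d ^ n₀ * y) ^ i) := by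
      rw [aeval_monomial]
      ring
    rw [e]
    exact mul_mem (Subalgebra.algebraMap_mem _ a) (mul_mem (pow_mem hd k) (pow_mem hyd i))

/-- **`B(y) ⊆ B(y')[1 / d]`.** -/
theorem cc_exists_pow_mul_mem (y y' d : E) (hd : d ∈ chartClosure A E y') (n₀ : ℕ)
    (hyd : d ^ n₀ * y ∈ chartClosure A E y') (z : E) (hz : z ∈ chartClosure A E y) :
    ∃ n : ℕ, d ^ n * z ∈ chartClosure A E y' := by
  classical
  obtain ⟨p, hp, hpz⟩ := (Fermat.Agent.H87.KL.mem_chartClosure_iff y z).1 hz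
  have hN : ∃ N : ℕ, ∀ i, d ^ N * aeval y (p.coeff i) ∈ chartClosure A E y' := by
    choose n hn using fun i => cc_pow_mul_aeval_mem y y' d hd n₀ hyd (p.coeff i)
    refine ⟨(Finset.range (p.natDegree + 1)).sup n, fun i => ?_⟩
    by_cases hi : i ≤ p.natDegree
    · exact hn i _ (Finset.le_sup (Finset.mem_range.2 (Nat.lt_succ_of_le hi)))
    · rw [Polynomial.coeff_eq_zero_of_natDegree_lt (not_le.1 hi), map_zero, mul_zero]
      exact zero_mem _
  obtain ⟨N, hN⟩ := hN
  set P : E[X] := p.map (evX (A := A) y) with hP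
  have hPm : P.Monic := hp.map _
  have hPz : P.eval z = 0 := by
    rw [hP, Polynomial.eval_map]
    exact hpz
  have hPc : ∀ i, P.coeff i = aeval y (p.coeff i) := fun i => by
    rw [hP, Polynomial.coeff_map]
    rfl
  refine ⟨N, cc_mem_of_monic_coeff_mem y' (scaleRoots P (d ^ N))
    ((monic_scaleRoots_iff _).2 hPm) ?_ (d ^ N * z) ?_⟩
  · intro i
    rw [coeff_scaleRoots]
    rcases Nat.eq_zero_or_pos (P.natDegree - i) with h0 | hpos
    · rw [h0, pow_zero, mul_one]
      rcases lt_or_ge P.natDegree i with hlt | hge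
      · rw [Polynomial.coeff_eq_zero_of_natDegree_lt hlt]
        exact zero_mem _
      · have hi : i = P.natDegree := by omega
        rw [hi, hPm.coeff_natDegree]
        exact one_mem _
    · obtain ⟨k, hk⟩ : ∃ k, P.natDegree - i = k + 1 := ⟨P.natDegree - i - 1, by omega⟩
      rw [hk, pow_succ, hPc]
      have e : aeval y (p.coeff i) * ((d ^ N) ^ k * d ^ N)
          = d ^ N * aeval y (p.coeff i) * (d ^ N) ^ k := by ring
      rw [e]
      exact mul_mem (hN i) (pow_mem (pow_mem hd N) k)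
  · have h := scaleRoots_eval₂_eq_zero (RingHom.id E) (p := P) (r := z) (s := d ^ N)
      (by rw [Polynomial.eval₂_id]; exact hPz)
    rw [Polynomial.eval₂_id, RingHom.id_apply] at h
    exact h

/-- `B(y') ⊆ B(y)` if `y' ∈ B(y)`. -/
theorem cc_chartClosure_le (y y' : E) (hy' : y' ∈ chartClosure A E y) :
    chartClosure A E y' ≤ chartClosure A E y := by
  intro z hz
  obtain ⟨p, hp, hpz⟩ := (Fermat.Agent.H87.KL.mem_chartClosure_iff y' z).1 hz
  set P : E[X] := p.map (evX (A := A) y') with hP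
  have hPm : P.Monic := hp.map _
  have hPz : P.eval z = 0 := by
    rw [hP, Polynomial.eval_map]
    exact hpz
  refine cc_mem_of_monic_coeff_mem y P hPm (fun i => ?_) z hPz
  rw [hP, Polynomial.coeff_map]
  show aeval y' (p.coeff i) ∈ chartClosure A E y
  rw [Polynomial.aeval_eq_sum_range]
  refine sum_mem fun j _ => ?_
  rw [Algebra.smul_def]
  exact mul_mem (Subalgebra.algebraMap_mem _ _) (pow_mem hy' j)

end Basic

section Max

variable {A : Type} [CommRing A] [IsDomain A] [IsDiscreteValuationRing A]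
variable {E : Type} [Field E] [Algebra A E] [CharZero E]

/-- Modulo a maximal ideal `𝔫 ∋ ϖ` of `B(y)` every element is integral over `A`. -/
theorem cc_isIntegral_quotient (ϖ : A) (hϖ : Irreducible ϖ) (y : E)
    (𝔫 : Ideal (chartClosure A E y)) (h𝔫 : 𝔫.IsMaximal)
    (hϖ𝔫 : algebraMap A (chartClosure A E y) ϖ ∈ 𝔫) (b : chartClosure A E y) :
    IsIntegral A (Ideal.Quotient.mk 𝔫 b) := by
  obtain ⟨g, hgm, -, hg𝔫⟩ := Fermat.Agent.H41.SS.ordPoint_exists_monic A E ϖ hϖ y 𝔫 h𝔫 hϖ𝔫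
  set φ : A[X] →+* (chartClosure A E y ⧸ 𝔫) :=
    (Ideal.Quotient.mk 𝔫).comp (Fermat.Agent.H67.SS.evB (A := A) y) with hφ
  set ybar : chartClosure A E y ⧸ 𝔫 := φ X with hybar
  have hφa : ∀ c : A[X], φ c = aeval ybar c := by
    intro c
    have h : φ = ((aeval ybar : A[X] →ₐ[A] (chartClosure A E y ⧸ 𝔫)) : A[X] →+* _) := by
      refine Polynomial.ringHom_ext (fun a => ?_) ?_
      · rw [hφ, RingHom.comp_apply, Fermat.Agent.H67.SS.evB_C]
        simp
      · simp [hybar]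
    rw [h]
    rfl
  have hybar_int : IsIntegral A ybar := by
    refine ⟨g, hgm, ?_⟩
    rw [← Polynomial.aeval_def, ← hφa, hφ, RingHom.comp_apply]
    refine Ideal.Quotient.eq_zero_iff_mem.2 ?_
    convert hg𝔫 using 1
    exact Subtype.ext rfl
  have hφint : ∀ c : A[X], IsIntegral A (φ c) := by
    intro c
    rw [hφa]
    have h1 : aeval ybar c ∈ Algebra.adjoin A {ybar} := Polynomial.aeval_mem_adjoin_singleton A ybar
    have h2 : Algebra.adjoin A {ybar} ≤ integralClosure A (chartClosure A E y ⧸ 𝔫) :=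
      Algebra.adjoin_le (by
        intro t ht
        rw [Set.mem_singleton_iff] at ht
        rw [ht]
        exact hybar_int)
    exact h2 h1
  obtain ⟨p, hp, hpb⟩ := Fermat.Agent.H67.SS.evB_isIntegral (A := A) y b
  set Q : (chartClosure A E y ⧸ 𝔫)[X] := p.map φ with hQ
  have hQm : Q.Monic := hp.map _
  have hQb : Q.eval (Ideal.Quotient.mk 𝔫 b) = 0 := by
    rw [hQ, Polynomial.eval_map, hφ, ← Polynomial.hom_eval₂, hpb, map_zero]
  have hl : Q ∈ Polynomial.lifts
      (algebraMap (integralClosure A (chartClosure A E y ⧸ 𝔫)) (chartClosure A E y ⧸ 𝔫)) := by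
    rw [Polynomial.lifts_iff_coeff_lifts]
    intro i
    refine ⟨⟨Q.coeff i, ?_⟩, rfl⟩
    rw [hQ, Polynomial.coeff_map]
    exact hφint _
  obtain ⟨q, hqm, -, hqmon⟩ := Polynomial.lifts_and_natDegree_eq_and_monic hl hQm
  have hint : IsIntegral (integralClosure A (chartClosure A E y ⧸ 𝔫))
      (Ideal.Quotient.mk 𝔫 b) :=
    ⟨q, hqmon, by rw [← Polynomial.eval_map, hqm]; exact hQb⟩
  exact isIntegral_trans _ hint

/-- (general) The contraction of a maximal ideal along an algebra homomorphism is maximal if the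
residue field is integral over the base ring. -/
theorem cc_comap_isMaximal_gen {A₁ R' R : Type*} [CommRing A₁] [CommRing R'] [CommRing R]
    [Algebra A₁ R'] [Algebra A₁ R] (ι : R' →ₐ[A₁] R) (𝔫 : Ideal R) [h𝔫 : 𝔫.IsMaximal]
    (hint : ∀ b : R, IsIntegral A₁ (Ideal.Quotient.mk 𝔫 b)) :
    (𝔫.comap ι.toRingHom).IsMaximal := by
  letI : Field (R ⧸ 𝔫) := Ideal.Quotient.field 𝔫
  let ψ : (R' ⧸ 𝔫.comap ι.toRingHom) →ₐ[A₁] (R ⧸ 𝔫) := Ideal.quotientMapₐ 𝔫 ι le_rfl
  have hψinj : Function.Injective ψ := Ideal.quotientMap_injective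
  letI : Algebra (R' ⧸ 𝔫.comap ι.toRingHom) (R ⧸ 𝔫) := ψ.toRingHom.toAlgebra
  haveI : IsScalarTower A₁ (R' ⧸ 𝔫.comap ι.toRingHom) (R ⧸ 𝔫) :=
    IsScalarTower.of_algebraMap_eq (fun a => (ψ.commutes a).symm)
  haveI : Algebra.IsIntegral (R' ⧸ 𝔫.comap ι.toRingHom) (R ⧸ 𝔫) := ⟨fun t => by
    obtain ⟨b, rfl⟩ := Ideal.Quotient.mk_surjective t
    exact (hint b).tower_top⟩
  exact Ideal.Quotient.maximal_of_isField _
    (isField_of_isIntegral_of_isField hψinj (Field.toIsField _))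

/-- **The contraction of a maximal ideal `𝔫 ∋ ϖ` of `B(y)` to a subring `B(y') ⊆ B(y)` is
maximal.** -/
theorem cc_comap_isMaximal (ϖ : A) (hϖ : Irreducible ϖ) (y y' : E)
    (hle : chartClosure A E y' ≤ chartClosure A E y)
    (𝔫 : Ideal (chartClosure A E y)) (h𝔫 : 𝔫.IsMaximal)
    (hϖ𝔫 : algebraMap A (chartClosure A E y) ϖ ∈ 𝔫) :
    (𝔫.comap (Subalgebra.inclusion hle).toRingHom).IsMaximal :=
  cc_comap_isMaximal_gen (Subalgebra.inclusion hle) 𝔫
    (fun b => cc_isIntegral_quotient ϖ hϖ y 𝔫 h𝔫 hϖ𝔫 b)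

end Max

section Reg

variable {A : Type} [CommRing A] [IsDomain A] [IsDiscreteValuationRing A]
variable {E : Type} [Field E] [Algebra A E] [CharZero E]

/-- (general) Transfer of the regularity statement along a localisation-like ring
homomorphism. -/
theorem cc_reg_transfer_gen {R' R : Type*} [CommRing R'] [CommRing R] (ι : R' →+* R)
    (𝔫 : Ideal R) [h𝔫 : 𝔫.IsPrime] (ϖ' : R') (D : R) (hD : D ∉ 𝔫)
    (hloc : ∀ z : R, ∃ (n : ℕ) (z' : R'), ι z' = D ^ n * z) (U' : R')
    (hreg : ∀ z' ∈ 𝔫.comap ι, ∃ s', s' ∉ 𝔫.comap ι ∧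
      ∃ b₁ b₂ : R', s' * z' = ϖ' * b₁ + U' * b₂) :
    ∀ z ∈ 𝔫, ∃ s, s ∉ 𝔫 ∧ ∃ b₁ b₂ : R, s * z = ι ϖ' * b₁ + ι U' * b₂ := by
  intro z hz
  obtain ⟨n, z', hz'⟩ := hloc z
  have hz'mem : z' ∈ 𝔫.comap ι := by
    rw [Ideal.mem_comap, hz']
    exact 𝔫.mul_mem_left _ hz
  obtain ⟨s', hs', b₁, b₂, hrel⟩ := hreg z' hz'mem
  refine ⟨ι s' * D ^ n, ?_, ι b₁, ι b₂, ?_⟩
  · intro h
    rcases h𝔫.mem_or_mem h with h1 | h1
    · exact hs' (Ideal.mem_comap.2 h1)
    · exact hD (h𝔫.mem_of_pow_mem n h1)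
  · have h1 := congrArg ι hrel
    rw [map_add, map_mul, map_mul, map_mul, hz'] at h1
    rw [← h1]
    ring

end Reg

end Fermat.Agent.H45
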