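import Fermat.Agent.H45.SS.Hartogs
import Fermat.Agent.H88.KL.KummerBranch

/-!
# P-SS : local generators and the second difference (helper45)

Abstract bookkeeping between the geometric rows of the hard half of P-SS and the abstract key
lemma `klssAbs_general`.

`σ` a ring automorphism of `E₀` (an element of inertia acting coefficientwise),
`ssSD σ g = σ²(g) g / σ(g)²` the SECOND DIFFERENCE.  `ssSD σ` is multiplicative, so for ANY local
generator `G` of the divisor of `f` at a maximal ideal `𝔪` (`f / G ^ m` a unit at every place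
centred at `𝔪`) the function `Hinv := ssSD σ G⁻¹` principalises `u := ssSD σ f` at `𝔪`:
`u * Hinv ^ m = ssSD σ (f / G ^ m)` is a unit at every place centred at `𝔪`, because `σ` fixes
the centres.  The Gauss condition `Hinv ≡ 1` is automatic (it holds for every second
difference).  No tube coordinate is needed in the interface.

* `ssSD`, `ssSD_mul`, `ssSD_inv`, `ssSD_pow`, `ssSD_div`.
* `IsRationalPlace`, `PlaceGenAt` : at every RATIONAL place `V` centred at `𝔪` a uniformiser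
  which is a unit at all OTHER places centred at `𝔪` (THE geometric statement).
* `ss_centredAt_comap` : `σ ≡ id` modulo `ϖ` on `B(y)` implies that `σ` fixes the centres.
* `localPrinc_of_localGen` : local generators give `LocalPrinc` for `ssSD σ f`.
* `localGen_of_placeGen` : local generators from place generators (finite product).
* `ss_sigmaB_of_gauss` : `σ ≡ id` modulo `ϖ` on `B(y)` from `σ ≡ id` modulo `ϖ` on `C(y)`.
-/

set_option autoImplicit false
set_option linter.style.haveILetI false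
set_option linter.unusedSectionVars false

noncomputable section

namespace Fermat.Agent.H45

open Fermat.Agent.H22.KL
open Fermat.Agent.H88.KLB

/-! ## The second difference -/

section SD

variable {E : Type} [Field E]

/-- The second difference `σ²(g) g / σ(g)²`. -/
def ssSD (σ : E ≃+* E) (g : E) : E := σ (σ g) * g / (σ g) ^ 2

theorem ssSD_mul (σ : E ≃+* E) (g h : E) : ssSD σ (g * h) = ssSD σ g * ssSD σ h := by
  unfold ssSD
  rw [map_mul, map_mul, mul_pow, div_mul_div_comm]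
  congr 1
  ring

theorem ssSD_one (σ : E ≃+* E) : ssSD σ 1 = 1 := by
  unfold ssSD
  simp

theorem ssSD_inv (σ : E ≃+* E) (g : E) : ssSD σ g⁻¹ = (ssSD σ g)⁻¹ := by
  unfold ssSD
  rw [map_inv₀, map_inv₀, inv_pow, inv_div, div_eq_mul_inv, inv_inv, div_eq_mul_inv, mul_inv]
  ring

theorem ssSD_pow (σ : E ≃+* E) (g : E) (n : ℕ) : ssSD σ (g ^ n) = ssSD σ g ^ n := by
  induction n with
  | zero => simp [ssSD_one]
  | succ k ih => rw [pow_succ, ssSD_mul, ih, pow_succ]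

theorem ssSD_div (σ : E ≃+* E) (g h : E) : ssSD σ (g / h) = ssSD σ g / ssSD σ h := by
  rw [div_eq_mul_inv, ssSD_mul, ssSD_inv, div_eq_mul_inv]

theorem ssSD_ne_zero (σ : E ≃+* E) {g : E} (hg : g ≠ 0) : ssSD σ g ≠ 0 := by
  unfold ssSD
  have h1 : σ g ≠ 0 := (map_ne_zero_iff σ σ.injective).mpr hg
  have h2 : σ (σ g) ≠ 0 := (map_ne_zero_iff σ σ.injective).mpr h1
  exact div_ne_zero (mul_ne_zero h2 hg) (pow_ne_zero 2 h1)

/-- `ssSD σ g` lies in `V` as soon as `g` is a unit at `V`, at `σ⁻¹ V` and at `σ⁻² V`. -/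
theorem ssSD_mem (σ : E ≃+* E) (V : ValuationSubring E) (g : E)
    (h0 : g ∈ V)
    (h1 : g⁻¹ ∈ V.comap (σ : E →+* E))
    (h2 : g ∈ (V.comap (σ : E →+* E)).comap (σ : E →+* E)) :
    ssSD σ g ∈ V := by
  unfold ssSD
  rw [ValuationSubring.mem_comap] at h1
  rw [ValuationSubring.mem_comap, ValuationSubring.mem_comap] at h2
  have h1' : (σ g)⁻¹ ∈ V := by
    have := h1
    rwa [RingEquiv.coe_toRingHom, map_inv₀] at this
  rw [div_eq_mul_inv, ← inv_pow]
  exact V.mul_mem _ _ (V.mul_mem _ _ h2 h0) (pow_mem h1' 2)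

end SD

/-! ## Rational places and place generators -/

/-- The place `V` of `E₀ / K₀` is RATIONAL: its residue field is `K₀ = Frac A`. -/
def IsRationalPlace (A : Type) [CommRing A] (E₀ : Type) [Field E₀] [Algebra A E₀]
    (V : ValuationSubring E₀) : Prop :=
  ∀ z ∈ V, ∃ a b : A, b ≠ 0 ∧ z - algebraMap A E₀ a / algebraMap A E₀ b ∈ V.nonunits

/-- **PLACE GENERATORS at `𝔪`** (the geometric statement of the hard half of P-SS): every
RATIONAL place `V` centred at the maximal ideal `𝔪` of `B(y)` has a uniformiser `t` which is a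
unit at every OTHER place (rational or not) centred at `𝔪`. -/
def PlaceGenAt (A : Type) [CommRing A] (E₀ : Type) [Field E₀] [Algebra A E₀] (y : E₀)
    (𝔪 : Ideal (chartClosure A E₀ y)) : Prop :=
  ∀ V : ValuationSubring E₀, CentredAt A E₀ y 𝔪 V → IsRationalPlace A E₀ V →
    ∃ t : E₀, IsUniformiser E₀ V t ∧
      ∀ V' : ValuationSubring E₀, CentredAt A E₀ y 𝔪 V' → V' ≠ V → t ∈ V' ∧ t⁻¹ ∈ V'

/-! ## `σ` fixes the centres -/

section Centre

variable {A : Type} [CommRing A] {E₀ : Type} [Field E₀] [Algebra A E₀]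

theorem ss_mem_nonunits_comap (σ : E₀ ≃+* E₀) (V : ValuationSubring E₀) (z : E₀) :
    z ∈ (V.comap (σ : E₀ →+* E₀)).nonunits ↔ σ z ∈ V.nonunits := by
  rw [((presents_valuation V).comap (σ : E₀ →+* E₀)).mem_nonunits,
    (presents_valuation V).mem_nonunits]
  rfl

/-- The transport of a place along an automorphism preserving `A` is a place. -/
theorem ss_isPlace_comap (hinj : Function.Injective (algebraMap A E₀)) (σ : E₀ ≃+* E₀)
    (hσA : ∀ a : A, ∃ b : A, σ (algebraMap A E₀ a) = algebraMap A E₀ b)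
    {V : ValuationSubring E₀} (hV : IsPlace A E₀ V) :
    IsPlace A E₀ (V.comap (σ : E₀ →+* E₀)) := by
  obtain ⟨htop, hpir, hA⟩ := hV
  obtain ⟨π, hπ⟩ := exists_discAt (presents_valuation V) htop hpir
  have hp := (presents_valuation V).comap (σ : E₀ →+* E₀)
  have hd : DiscAt (V.valuation.comap (σ : E₀ →+* E₀)) (σ.symm π) := by
    refine ⟨(map_ne_zero_iff σ.symm σ.symm.injective).mpr hπ.1, ?_, fun z hz => ?_⟩
    · show V.valuation (σ (σ.symm π)) < 1
      rw [RingEquiv.apply_symm_apply]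
      exact hπ.2.1
    · obtain ⟨k, hk⟩ := hπ.2.2 (σ z) ((map_ne_zero_iff σ σ.injective).mpr hz)
      refine ⟨k, ?_⟩
      show V.valuation (σ z) = V.valuation (σ (σ.symm π)) ^ k
      rw [RingEquiv.apply_symm_apply]
      exact hk
  refine ⟨hd.ne_top hp, hd.isPrincipalIdealRing hp, fun a ha => ?_⟩
  obtain ⟨b, hb⟩ := hσA a
  have hb0 : b ≠ 0 := by
    rintro rfl
    rw [map_zero] at hb
    have h1 : algebraMap A E₀ a = 0 := (map_eq_zero_iff σ σ.injective).mp hb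
    exact ha (hinj (by rw [h1, map_zero]))
  obtain ⟨h1, h2⟩ := hA b hb0
  refine ⟨ValuationSubring.mem_comap.mpr ?_, ValuationSubring.mem_comap.mpr ?_⟩
  · rw [RingEquiv.coe_toRingHom, hb]
    exact h1
  · rw [RingEquiv.coe_toRingHom, map_inv₀, hb]
    exact h2

/-- **`σ` fixes the centres**: if `σ ≡ id` modulo `ϖ` on `B(y)` and `V` is centred at `𝔪 ∋ ϖ`,
then so is `σ⁻¹ V`. -/
theorem ss_centredAt_comap (hinj : Function.Injective (algebraMap A E₀)) (ϖ : A) (y : E₀)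
    (σ : E₀ ≃+* E₀)
    (hσA : ∀ a : A, ∃ b : A, σ (algebraMap A E₀ a) = algebraMap A E₀ b)
    (hσy : σ y = y)
    (hσB : ∀ s ∈ chartClosure A E₀ y, ∃ c ∈ chartClosure A E₀ y,
      σ s - s = algebraMap A E₀ ϖ * c)
    (𝔪 : Ideal (chartClosure A E₀ y))
    (hϖ𝔪 : algebraMap A (chartClosure A E₀ y) ϖ ∈ 𝔪)
    {V : ValuationSubring E₀} (hV : CentredAt A E₀ y 𝔪 V) :
    CentredAt A E₀ y 𝔪 (V.comap (σ : E₀ →+* E₀)) := by
  obtain ⟨⟨hP, hyV⟩, hc⟩ := hV
  refine ⟨⟨ss_isPlace_comap hinj σ hσA hP, ?_⟩, fun s hs => ?_⟩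
  · rw [ValuationSubring.mem_comap, RingEquiv.coe_toRingHom, hσy]
    exact hyV
  · rw [ss_mem_nonunits_comap] at hs
    obtain ⟨c, hcB, hcs⟩ := hσB (s : E₀) s.2
    have hσs : σ (s : E₀) = (s : E₀) + algebraMap A E₀ ϖ * c := by
      rw [← hcs]; ring
    have hσsB : σ (s : E₀) ∈ chartClosure A E₀ y := by
      rw [hσs]
      exact Subalgebra.add_mem _ s.2
        (Subalgebra.mul_mem _ (Subalgebra.algebraMap_mem _ ϖ) hcB)
    have h1 : (⟨σ (s : E₀), hσsB⟩ : chartClosure A E₀ y) ∈ 𝔪 := hc ⟨_, hσsB⟩ hs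
    have h2 : s = (⟨σ (s : E₀), hσsB⟩ : chartClosure A E₀ y)
        - algebraMap A (chartClosure A E₀ y) ϖ * ⟨c, hcB⟩ := by
      apply Subtype.ext
      show (s : E₀) = σ (s : E₀) - algebraMap A E₀ ϖ * c
      rw [hσs]; ring
    rw [h2]
    exact 𝔪.sub_mem h1 (𝔪.mul_mem_right _ hϖ𝔪)

end Centre

/-! ## Local generators give local principalisation of the second difference -/

/-- **Local principalisation of the second difference from local generators.** -/
theorem localPrinc_of_localGen (hH : LocalHartogsStatement)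
    (A : Type) [CommRing A] [IsDomain A] [IsDiscreteValuationRing A]
    (E₀ : Type) [Field E₀] [Algebra A E₀] [CharZero E₀]
    (hinj : Function.Injective (algebraMap A E₀))
    (ϖ : A) (hϖ : Irreducible ϖ) (y : E₀) (hy : Transcendental A y)
    (hfd : ∃ n : ℕ, Nonempty (Module.Basis (Fin n) (chartField A E₀ y) E₀))
    (σ : E₀ ≃+* E₀)
    (hσA : ∀ a : A, ∃ b : A, σ (algebraMap A E₀ a) = algebraMap A E₀ b)
    (hσy : σ y = y)
    (hσB : ∀ s ∈ chartClosure A E₀ y, ∃ c ∈ chartClosure A E₀ y,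
      σ s - s = algebraMap A E₀ ϖ * c)
    (hSD : ∀ g : E₀, g ≠ 0 → ssSD σ g ∈ gaussClosure A E₀ ϖ y ∧
      PiDvdSet A E₀ ϖ (gaussClosure A E₀ ϖ y) (ssSD σ g - 1))
    (m : ℕ) (f : E₀) (hf : f ≠ 0)
    (hgen : ∀ 𝔪 : Ideal (chartClosure A E₀ y), 𝔪.IsMaximal →
      algebraMap A (chartClosure A E₀ y) ϖ ∈ 𝔪 →
      ∃ G : E₀, G ≠ 0 ∧ ∀ V : ValuationSubring E₀, CentredAt A E₀ y 𝔪 V →
        f / G ^ m ∈ V ∧ (f / G ^ m)⁻¹ ∈ V) :
    LocalPrinc A E₀ ϖ y m (ssSD σ f) := by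
  refine localPrinc_of_places hH A E₀ hinj ϖ hϖ y hy hfd m (ssSD σ f) (hSD f hf).1 ?_
  intro 𝔪 h𝔪 hϖ𝔪
  obtain ⟨G, hG0, hG⟩ := hgen 𝔪 h𝔪 hϖ𝔪
  have hGi : G⁻¹ ≠ 0 := inv_ne_zero hG0
  refine ⟨ssSD σ G⁻¹, (hSD _ hGi).1, (hSD _ hGi).2, fun V hV => ?_⟩
  have e : ssSD σ f * ssSD σ G⁻¹ ^ m = ssSD σ (f / G ^ m) := by
    rw [← ssSD_pow, ← ssSD_mul, inv_pow, div_eq_mul_inv]
  rw [e]
  have hV1 := ss_centredAt_comap hinj ϖ y σ hσA hσy hσB 𝔪 hϖ𝔪 hV
  have hV2 := ss_centredAt_comap hinj ϖ y σ hσA hσy hσB 𝔪 hϖ𝔪 hV1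
  exact ssSD_mem σ V _ (hG V hV).1 (hG _ hV1).2 (hG _ hV2).1

/-! ## Local generators from place generators -/

section Gen

variable {A : Type} [CommRing A] {E₀ : Type} [Field E₀] [Algebra A E₀]

theorem ss_val_eq_one_iff (V : ValuationSubring E₀) {z : E₀} (hz : z ≠ 0) :
    V.valuation z = 1 ↔ z ∈ V ∧ z⁻¹ ∈ V :=
  (presents_valuation V).val_eq_one_iff hz

/-- At a place with a uniformiser `t` which is a unit at the other places centred at `𝔪`, a
function `f` with `m ∣ ord_V f` has a local generator `g` (a power of `t`). -/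
theorem ss_exists_gen_at (y : E₀) (𝔪 : Ideal (chartClosure A E₀ y)) (m : ℕ) (f : E₀)
    (hf : f ≠ 0) (V : ValuationSubring E₀) (hV : IsPlace A E₀ V) (hord : OrdDvd E₀ V m f)
    (t : E₀) (ht : IsUniformiser E₀ V t)
    (ht' : ∀ V' : ValuationSubring E₀, CentredAt A E₀ y 𝔪 V' → V' ≠ V → t ∈ V' ∧ t⁻¹ ∈ V') :
    ∃ g : E₀, g ≠ 0 ∧ V.valuation (f / g ^ m) = 1 ∧
      ∀ V' : ValuationSubring E₀, CentredAt A E₀ y 𝔪 V' → V' ≠ V → V'.valuation g = 1 := by
  have hd := discAt_of_isPlace hV ht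
  obtain ⟨s, hs0, hs1, hs2⟩ := hord
  obtain ⟨k, hk⟩ := hd.2.2 s hs0
  have ht0 : t ≠ 0 := ht.1
  refine ⟨t ^ (-k), zpow_ne_zero _ ht0, ?_, fun V' hV' hne => ?_⟩
  · have h1 : V.valuation (f * s ^ m) = 1 :=
      (ss_val_eq_one_iff V (mul_ne_zero hf (pow_ne_zero m hs0))).mpr ⟨hs1, hs2⟩
    rw [map_div₀, map_pow, map_zpow₀, zpow_neg, ← hk, inv_pow, div_inv_eq_mul, ← map_pow,
      ← map_mul]
    exact h1
  · have h1 : V'.valuation t = 1 := (ss_val_eq_one_iff V' ht0).mpr (ht' V' hV' hne)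
    rw [map_zpow₀, h1, one_zpow]

/-- **Local generators from place generators.**  If `f` has only finitely many zeros and poles
among the places centred at `𝔪`, `m ∣ ord_V f` everywhere, and every zero or pole `V` of `f`
centred at `𝔪` has a uniformiser which is a unit at the other places centred at `𝔪`, then the
divisor of `f` is `m` times a principal divisor near `𝔪`. -/
theorem localGen_of_placeGen (y : E₀) (𝔪 : Ideal (chartClosure A E₀ y)) (m : ℕ) (f : E₀)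
    (hf : f ≠ 0)
    (hfin : {V : ValuationSubring E₀ | CentredAt A E₀ y 𝔪 V ∧ ¬ (f ∈ V ∧ f⁻¹ ∈ V)}.Finite)
    (hord : ∀ V : ValuationSubring E₀, IsPlace A E₀ V → OrdDvd E₀ V m f)
    (ht : ∀ V : ValuationSubring E₀, CentredAt A E₀ y 𝔪 V → ¬ (f ∈ V ∧ f⁻¹ ∈ V) →
      ∃ t : E₀, IsUniformiser E₀ V t ∧
        ∀ V' : ValuationSubring E₀, CentredAt A E₀ y 𝔪 V' → V' ≠ V → t ∈ V' ∧ t⁻¹ ∈ V') :
    ∃ G : E₀, G ≠ 0 ∧ ∀ V : ValuationSubring E₀, CentredAt A E₀ y 𝔪 V →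
      f / G ^ m ∈ V ∧ (f / G ^ m)⁻¹ ∈ V := by
  classical
  have key : ∀ V : ValuationSubring E₀,
      ∃ g : E₀, g ≠ 0 ∧ ((CentredAt A E₀ y 𝔪 V ∧ ¬ (f ∈ V ∧ f⁻¹ ∈ V)) →
        V.valuation (f / g ^ m) = 1 ∧
        ∀ V' : ValuationSubring E₀, CentredAt A E₀ y 𝔪 V' → V' ≠ V → V'.valuation g = 1) := by
    intro V
    by_cases hV : CentredAt A E₀ y 𝔪 V ∧ ¬ (f ∈ V ∧ f⁻¹ ∈ V)
    · obtain ⟨t, ht1, ht2⟩ := ht V hV.1 hV.2
      obtain ⟨g, hg0, hg1, hg2⟩ :=
        ss_exists_gen_at y 𝔪 m f hf V hV.1.1.1 (hord V hV.1.1.1) t ht1 ht2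
      exact ⟨g, hg0, fun _ => ⟨hg1, hg2⟩⟩
    · exact ⟨1, one_ne_zero, fun h => absurd h hV⟩
  choose g hg0 hg using key
  refine ⟨∏ V ∈ hfin.toFinset, g V, Finset.prod_ne_zero_iff.mpr fun V _ => hg0 V, ?_⟩
  intro V₀ hV₀
  have hG0 : (∏ V ∈ hfin.toFinset, g V) ≠ 0 := Finset.prod_ne_zero_iff.mpr fun V _ => hg0 V
  have hne : f / (∏ V ∈ hfin.toFinset, g V) ^ m ≠ 0 := div_ne_zero hf (pow_ne_zero m hG0)
  rw [← ss_val_eq_one_iff V₀ hne]
  by_cases hS : ¬ (f ∈ V₀ ∧ f⁻¹ ∈ V₀)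
  · have hmem : V₀ ∈ hfin.toFinset := hfin.mem_toFinset.mpr ⟨hV₀, hS⟩
    have h1 : V₀.valuation (∏ V ∈ hfin.toFinset, g V) = V₀.valuation (g V₀) := by
      rw [map_prod]
      refine Finset.prod_eq_single_of_mem V₀ hmem fun V hV hVne => ?_
      exact (hg V (hfin.mem_toFinset.mp hV)).2 V₀ hV₀ (Ne.symm hVne)
    rw [map_div₀, map_pow, h1, ← map_pow, ← map_div₀]
    exact (hg V₀ ⟨hV₀, hS⟩).1
  · rw [not_not] at hS
    have h1 : V₀.valuation (∏ V ∈ hfin.toFinset, g V) = 1 := by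
      rw [map_prod]
      refine Finset.prod_eq_one fun V hV => ?_
      have hV' := hfin.mem_toFinset.mp hV
      refine (hg V hV').2 V₀ hV₀ ?_
      rintro rfl
      exact hV'.2 hS
    rw [map_div₀, map_pow, h1, one_pow, div_one]
    exact (ss_val_eq_one_iff V₀ hf).mpr hS

end Gen

end Fermat.Agent.H45
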