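import Fermat.Agent.H45.SS.SecondDiff
import Fermat.Agent.H71.SS.LevelCore

/-!
# P-SS : the auxiliary-level `J`-side statement from the second difference statement (helper45)

* `unipotent_of_secondDifference_at` : `SecondDifferenceStatement N q` (one prime `q`) gives
  `(σ - 1)² = 0` on `J₀(N)[m]` for `σ` in an inertia group at `q`, `q ∤ m`.
* `unipotentTorsionAux_of_secondDifference` : `Fermat.Agent.H71.SS.UnipotentTorsionAuxStatement`
  (the input of `Fermat.Agent.H71.SS.s34_of_aux`) from the second difference statements at the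
  auxiliary levels `M q`, `q ∤ M`, `4 ∣ M` (`q` odd) resp. `9 ∣ M` (`q = 2`).
-/

set_option autoImplicit false

open AlgebraicCurve ModularCurve

namespace Fermat.Agent.H45

open Fermat.Agent.H22.ES

/-- **Unipotent inertia on torsion at one prime** from the second difference statement. -/
theorem unipotent_of_secondDifference_at (N q : ℕ) [NeZero N]
    (h : SecondDifferenceStatement N q) (m : ℕ) (hm : 0 < m) (hqm : ¬ q ∣ m)
    (B : ValuationSubring (AlgebraicClosure ℚ)) (hB : B.LiesOverPrime q)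
    (σ : AlgebraicClosure ℚ ≃ₐ[ℚ] AlgebraicClosure ℚ) (hσ : σ ∈ B.inertiaSubgroupIn ℚ)
    (x : JZero N) (hx : m • x = 0) :
    σ • σ • x - 2 • (σ • x) + x = 0 := by
  obtain ⟨D, rfl⟩ := Pic0.mk_surjective x
  have hmD : ((m • D : Divisor.degZero (K := AlgebraicClosure ℚ)
      (F := modularFunctionFieldBar N)) : Divisor (AlgebraicClosure ℚ)
        (modularFunctionFieldBar N)) ∈
      Divisor.principal (K := AlgebraicClosure ℚ) (F := modularFunctionFieldBar N) := by
    have h1 : Pic0.mk (m • D) = 0 := hx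
    have h2 := (QuotientAddGroup.eq_zero_iff _).mp h1
    exact h2
  obtain ⟨f, hf0, hfD⟩ := hmD
  have hfD' : ∀ P : Place (AlgebraicClosure ℚ) (modularFunctionFieldBar N),
      P.ord f = (m : ℤ) * (D : Divisor (AlgebraicClosure ℚ) (modularFunctionFieldBar N)) P := by
    intro P
    rw [← hfD P]
    simp
  obtain ⟨w, hw⟩ := h B hB σ hσ m hm hqm f hf0
    (fun P => by rw [hfD' P]; exact dvd_mul_right _ _)
  rw [galois_smul_pic0_def, galois_smul_pic0_def]
  exact ssd_pic0_of_pow _ D m hm f w hf0 hfD' hw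

/-- **The auxiliary-level statement** (input of `Fermat.Agent.H71.SS.s34_of_aux`) from the
second difference statements at the auxiliary levels. -/
theorem unipotentTorsionAux_of_secondDifference
    (h : ∀ (M q : ℕ) [NeZero M] [NeZero q], q.Prime → ¬ q ∣ M →
      (q ≠ 2 → 4 ∣ M) → (q = 2 → 9 ∣ M) → SecondDifferenceStatement (M * q) q) :
    Fermat.Agent.H71.SS.UnipotentTorsionAuxStatement := by
  intro N _ q hq hqN hq2 h4 h9 m hm hqm B hB σ hσ x hx
  obtain ⟨M, rfl⟩ : ∃ M, N = M * q := ⟨N / q, (Nat.div_mul_cancel hqN).symm⟩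
  have hM0 : M ≠ 0 := by
    rintro rfl
    exact NeZero.ne (0 * q) (zero_mul q)
  haveI : NeZero M := ⟨hM0⟩
  haveI : NeZero q := ⟨hq.ne_zero⟩
  have hqM : ¬ q ∣ M := by
    rintro ⟨c, rfl⟩
    exact hq2 ⟨c, by ring⟩
  have h4' : q ≠ 2 → 4 ∣ M := by
    intro hq2'
    have hodd : Nat.Coprime 4 q := by
      have h2q : Nat.Coprime 2 q := (Nat.coprime_primes Nat.prime_two hq).mpr (Ne.symm hq2')
      exact Nat.Coprime.pow_left 2 h2q
    exact hodd.dvd_of_dvd_mul_right (h4 hq2')
  have h9' : q = 2 → 9 ∣ M := by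
    intro hq2'
    have hc : Nat.Coprime 9 q := by
      rw [hq2']
      decide
    exact hc.dvd_of_dvd_mul_right (h9 hq2')
  exact unipotent_of_secondDifference_at (M * q) q (h M q hq hqM h4' h9') m hm hqm B hB σ hσ x hx

end Fermat.Agent.H45
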