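import Fermat.Agent.H45.SS.Model
import Fermat.Agent.H23.PlaceBasic

/-!
# P-SS hard half : `ModelLocalPrincStatement` from the geometric statements (helper45)

`modelLocalPrinc_of_placeGen` : the combined output `Fermat.Agent.H82.SS.ModelLocalPrincStatement`
of the geometric rows (the input of helper82's model-level assembly `modelSecondDiffGen_of`), from

* `LocalHartogsStatement` (row SSH-1),
* `ModelGaussSDStatement` (row SSH-5) and its by-product `ModelSigmaCongrStatement`,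
* `SSPlaceGenStatement` (rows SSH-6 … SSH-9 + chart transfer, `ssPlaceGen_of_parts`),
* `ModelFiniteZerosStatement`, `ModelTranscendentalStatement`, `ModelFiniteStatement`.

The proof is pure bookkeeping: `localPrinc_of_localGen` and `localGen_of_placeGen` in both
charts.
-/

set_option autoImplicit false
set_option linter.style.haveILetI false
set_option linter.unusedSectionVars false

noncomputable section

namespace Fermat.Agent.H45

open Polynomial ModularCurve AlgebraicCurve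
open Fermat.Agent.H22.KL
open Fermat.Agent.H82.SS
open Fermat.Agent.H67.KLConn (PiDvd)

/-! ## `σ ≡ id` on `B(y)` from `σ ≡ id` on `C(y)` -/

section Adapter

variable {A : Type} [CommRing A] [IsDomain A] [IsDiscreteValuationRing A]
  {E₀ : Type} [Field E₀] [Algebra A E₀]

/-- An automorphism preserving `A` and fixing `y` preserves `A[y]`. -/
theorem ss_sigma_chartRing (y : E₀) (σ : E₀ ≃+* E₀)
    (hσA : ∀ a : A, ∃ b : A, σ (algebraMap A E₀ a) = algebraMap A E₀ b) (hσy : σ y = y)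
    (z : E₀) (hz : z ∈ chartRing A E₀ y) : σ z ∈ chartRing A E₀ y := by
  unfold chartRing at hz ⊢
  induction hz using Algebra.adjoin_induction with
  | mem w hw =>
    rw [Set.mem_singleton_iff] at hw
    rw [hw, hσy]
    exact Algebra.subset_adjoin rfl
  | algebraMap a =>
    obtain ⟨b, hb⟩ := hσA a
    rw [hb]
    exact Subalgebra.algebraMap_mem _ b
  | add u v _ _ hu hv =>
    rw [map_add]
    exact Subalgebra.add_mem _ hu hv
  | mul u v _ _ hu hv =>
    rw [map_mul]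
    exact Subalgebra.mul_mem _ hu hv

/-- An automorphism preserving `A` and fixing `y` preserves `B(y)`. -/
theorem ss_sigma_chartClosure (y : E₀) (σ : E₀ ≃+* E₀)
    (hσA : ∀ a : A, ∃ b : A, σ (algebraMap A E₀ a) = algebraMap A E₀ b) (hσy : σ y = y)
    (s : E₀) (hs : s ∈ chartClosure A E₀ y) : σ s ∈ chartClosure A E₀ y := by
  have hs' : IsIntegral ↥(chartRing A E₀ y) s := hs
  show IsIntegral ↥(chartRing A E₀ y) (σ s)
  let φ : ↥(chartRing A E₀ y) →+* ↥(chartRing A E₀ y) :=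
    RingHom.restrict (σ : E₀ →+* E₀) (chartRing A E₀ y) (chartRing A E₀ y)
      (fun z hz => ss_sigma_chartRing y σ hσA hσy z hz)
  have h := IsIntegral.map_of_comp_eq φ (σ : E₀ →+* E₀) (by
    ext z
    rfl) hs'
  exact h

/-- **`σ ≡ id` modulo `ϖ` on `B(y)`** from the same on the Gauss closure (Lemma T). -/
theorem ss_sigmaB_of_gauss (hinj : Function.Injective (algebraMap A E₀)) (ϖ : A)
    (hϖ : Irreducible ϖ) (y : E₀) (hy : Transcendental A y) (σ : E₀ ≃+* E₀)
    (hσA : ∀ a : A, ∃ b : A, σ (algebraMap A E₀ a) = algebraMap A E₀ b) (hσy : σ y = y)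
    (hσC : ∀ z ∈ gaussClosure A E₀ ϖ y, PiDvdSet A E₀ ϖ (gaussClosure A E₀ ϖ y) (σ z - z)) :
    ∀ s ∈ chartClosure A E₀ y, ∃ c ∈ chartClosure A E₀ y,
      σ s - s = algebraMap A E₀ ϖ * c := by
  intro s hs
  obtain ⟨hBC, -, -⟩ := Fermat.Agent.H89.gaussClosureStatement A E₀ hinj ϖ hϖ y hy
  have h1 : σ s - s ∈ chartClosure A E₀ y :=
    Subalgebra.sub_mem _ (ss_sigma_chartClosure y σ hσA hσy s hs) hs
  obtain ⟨c, hc, hcs⟩ :=
    Fermat.Agent.H34.lemmaT A E₀ hinj ϖ hϖ y hy (σ s - s) h1 (hσC s (hBC s hs))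
  refine ⟨c, hc, ?_⟩
  rw [hcs, pow_one, Algebra.smul_def]

end Adapter

/-! ## The model -/

section ModelFacts

variable {K₁ : Type} [Field K₁] [Algebra ℚ K₁] (N : ℕ)

/-- The coefficientwise action fixes the chart coordinate. -/
theorem ss_modelSigma_coord (σ₁ : K₁ ≃ₐ[ℚ] K₁) (x₀ : LaurentSeries ℚ) (x : ModelField K₁ N)
    (hx : (x : LaurentSeries K₁) = coeffEmb K₁ x₀) : modelSigma K₁ N σ₁ x = x := by
  apply Subtype.ext
  rw [coe_arithmeticRingAut_apply, hx]
  unfold coeffEmb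
  rw [coeffMap_coeffMap]
  exact coeffMap_congr (RingHom.ext fun a => σ₁.commutes a) x₀

/-- The coefficientwise action of an inertia element preserves `A₀`. -/
theorem ss_modelSigma_const (A₀ : Type) [CommRing A₀] [Algebra A₀ K₁]
    [Algebra A₀ (ModelField K₁ N)] [IsScalarTower A₀ K₁ (ModelField K₁ N)]
    (σ₁ : K₁ ≃ₐ[ℚ] K₁) (hσ₁ : IsModelInertia K₁ A₀ σ₁) (a : A₀) :
    ∃ b : A₀, modelSigma K₁ N σ₁ (algebraMap A₀ (ModelField K₁ N) a)
      = algebraMap A₀ (ModelField K₁ N) b := by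
  obtain ⟨b, hb, -⟩ := hσ₁ a
  refine ⟨b, ?_⟩
  rw [IsScalarTower.algebraMap_apply A₀ K₁ (ModelField K₁ N),
    IsScalarTower.algebraMap_apply A₀ K₁ (ModelField K₁ N) b, hb]
  exact arithmeticRingAut_algebraMap (modularFunctionFieldFull N) σ₁ _

end ModelFacts

section Places

variable {K₁ : Type} [Field K₁] {E : Type} [Field E] [Algebra K₁ E]

/-- A place with `ord_P f = 0` has `f` as a unit. -/
theorem ss_unit_of_ord_eq_zero (P : Place K₁ E) {f : E} (h : P.ord f = 0) :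
    f ∈ P.toValuationSubring ∧ f⁻¹ ∈ P.toValuationSubring := by
  refine ⟨Fermat.Agent.H23.mem_of_ord_nonneg P (le_of_eq h.symm),
    Fermat.Agent.H23.mem_of_ord_nonneg P ?_⟩
  rw [P.ord_inv, h, neg_zero]

/-- Rationality in the prelude sense gives rationality in the sense of `IsRationalPlace`. -/
theorem ss_isRationalPlace_of (A₀ : Type) [CommRing A₀] [Algebra A₀ K₁] [IsFractionRing A₀ K₁]
    [Algebra A₀ E] [IsScalarTower A₀ K₁ E] (P : Place K₁ E)
    (h : Fermat.Agent.H82.SS.IsRationalPlace P) :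
    Fermat.Agent.H45.IsRationalPlace A₀ E P.toValuationSubring := by
  intro z hz
  obtain ⟨c, hc⟩ := h z hz
  obtain ⟨a, b, hb, rfl⟩ := IsFractionRing.div_surjective (A := A₀) c
  haveI : Nontrivial A₀ := (algebraMap A₀ K₁).domain_nontrivial
  refine ⟨a, b, nonZeroDivisors.ne_zero hb, ?_⟩
  rw [map_div₀, ← IsScalarTower.algebraMap_apply, ← IsScalarTower.algebraMap_apply] at hc
  exact hc

end Places

/-- `ModelLocalPrincStatement` with roots of unity in `K₁` (orders chosen by the providers of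
the geometric rows). -/
def SSModelLocalPrincStatement (M q : ℕ) [NeZero M] [NeZero q] (x₀ : LaurentSeries ℚ)
    (R₁ R₂ R₃ : ℕ) : Prop :=
  ∀ (K₁ : Type) [Field K₁] [Algebra ℚ K₁] [FiniteDimensional ℚ K₁]
    (A₀ : Type) [CommRing A₀] [IsDomain A₀] [IsDiscreteValuationRing A₀]
    [Algebra A₀ K₁] [IsFractionRing A₀ K₁]
    [Algebra A₀ (ModelField K₁ (M * q))] [IsScalarTower A₀ K₁ (ModelField K₁ (M * q))],
    ¬ IsUnit ((q : ℕ) : A₀) →
    (∃ ζ : K₁, IsPrimitiveRoot ζ R₁) → (∃ ζ : K₁, IsPrimitiveRoot ζ R₂) →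
    (∃ ζ : K₁, IsPrimitiveRoot ζ R₃) →
    ∀ (ϖ : A₀), Irreducible ϖ →
    ∀ (x : ModelField K₁ (M * q)), (x : LaurentSeries K₁) = coeffEmb K₁ x₀ →
    ∀ (σ₁ : K₁ ≃ₐ[ℚ] K₁), IsModelInertia K₁ A₀ σ₁ →
    ∀ (r : ℕ), 0 < r → IsUnit ((r : ℕ) : A₀) →
    ∀ f : ModelField K₁ (M * q), f ≠ 0 →
      (∀ P : Place K₁ (ModelField K₁ (M * q)), (r : ℤ) ∣ P.ord f) →
      (∀ P : Place K₁ (ModelField K₁ (M * q)), P.ord f ≠ 0 →
        Fermat.Agent.H82.SS.IsRationalPlace P) →
      LocalPrinc A₀ (ModelField K₁ (M * q)) ϖ x r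
          (secondDiff (modelSigma K₁ (M * q) σ₁) f) ∧
        LocalPrinc A₀ (ModelField K₁ (M * q)) ϖ x⁻¹ r
          (secondDiff (modelSigma K₁ (M * q) σ₁) f)

/-- **`ModelLocalPrincStatement` from the geometric statements** (with roots of unity). -/
theorem ssModelLocalPrinc_of_placeGen (M q : ℕ) [NeZero M] [NeZero q] (x₀ : LaurentSeries ℚ)
    (R₁ R₂ R₃ : ℕ)
    (hH : LocalHartogsStatement)
    (hTr : ModelTranscendentalStatement (M * q) x₀)
    (hFin : ModelFiniteStatement (M * q) x₀)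
    (hSD : ModelGaussSDStatement M q x₀)
    (hσ : ModelSigmaCongrStatement M q x₀)
    (hFZ : ModelFiniteZerosStatement (M * q))
    (hPG : SSPlaceGenStatement M q x₀ R₁ R₂ R₃) :
    SSModelLocalPrincStatement M q x₀ R₁ R₂ R₃ := by
  classical
  intro K₁ _ _ _ A₀ _ _ _ _ _ _ _ hq h1 h2 h3 ϖ hϖ x hx σ₁ hσ₁ r hr hrA f hf hord hrat
  haveI : CharZero K₁ := charZero_of_injective_algebraMap (algebraMap ℚ K₁).injective
  haveI : CharZero (ModelField K₁ (M * q)) :=
    charZero_of_injective_algebraMap (algebraMap K₁ (ModelField K₁ (M * q))).injective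
  have hinj : Function.Injective (algebraMap A₀ (ModelField K₁ (M * q))) := by
    rw [IsScalarTower.algebraMap_eq A₀ K₁ (ModelField K₁ (M * q))]
    exact (algebraMap K₁ (ModelField K₁ (M * q))).injective.comp
      (IsFractionRing.injective A₀ K₁)
  have htr : Transcendental A₀ x := hTr K₁ A₀ x hx
  have htri : Transcendental A₀ x⁻¹ := fun h => htr (IsAlgebraic.inv_iff.mp h)
  have hfd := hFin K₁ A₀ x hx
  have hfdi : ∃ n : ℕ, Nonempty (Module.Basis (Fin n)
      (chartField A₀ (ModelField K₁ (M * q)) x⁻¹) (ModelField K₁ (M * q))) := by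
    rw [Fermat.Agent.H89.klg_chartField_inv]
    exact hfd
  obtain ⟨-, -, hCinv⟩ :=
    Fermat.Agent.H89.gaussClosureStatement A₀ (ModelField K₁ (M * q)) hinj ϖ hϖ x htr
  set σ : ModelField K₁ (M * q) ≃+* ModelField K₁ (M * q) := modelSigma K₁ (M * q) σ₁ with hσdef
  have hσA : ∀ a : A₀, ∃ b : A₀, σ (algebraMap A₀ (ModelField K₁ (M * q)) a)
      = algebraMap A₀ (ModelField K₁ (M * q)) b :=
    fun a => ss_modelSigma_const (M * q) A₀ σ₁ hσ₁ a
  have hσx : σ x = x := ss_modelSigma_coord (M * q) σ₁ x₀ x hx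
  have hσxi : σ x⁻¹ = x⁻¹ := by rw [map_inv₀, hσx]
  have hσC := hσ K₁ A₀ hq ϖ hϖ x hx σ₁ hσ₁
  have hSD' : ∀ g : ModelField K₁ (M * q), g ≠ 0 →
      ssSD σ g ∈ gaussClosure A₀ (ModelField K₁ (M * q)) ϖ x ∧
      PiDvdSet A₀ (ModelField K₁ (M * q)) ϖ (gaussClosure A₀ (ModelField K₁ (M * q)) ϖ x)
        (ssSD σ g - 1) := fun g hg => hSD K₁ A₀ hq ϖ hϖ x hx σ₁ hσ₁ g hg
  -- the common part for both charts
  have main : ∀ y : ModelField K₁ (M * q), (y = x ∨ y = x⁻¹) → Transcendental A₀ y →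
      (∃ n : ℕ, Nonempty (Module.Basis (Fin n)
        (chartField A₀ (ModelField K₁ (M * q)) y) (ModelField K₁ (M * q)))) →
      σ y = y →
      gaussClosure A₀ (ModelField K₁ (M * q)) ϖ y
        = gaussClosure A₀ (ModelField K₁ (M * q)) ϖ x →
      LocalPrinc A₀ (ModelField K₁ (M * q)) ϖ y r (ssSD σ f) := by
    intro y hyx hy hfdy hσy hCy
    have hσB := ss_sigmaB_of_gauss hinj ϖ hϖ y hy σ hσA hσy (by rw [hCy]; exact hσC)
    refine localPrinc_of_localGen hH A₀ (ModelField K₁ (M * q)) hinj ϖ hϖ y hy hfdy σ hσA hσy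
      hσB (by rw [hCy]; exact hSD') r f hf ?_
    intro 𝔪 h𝔪 hϖ𝔪
    refine localGen_of_placeGen y 𝔪 r f hf ?_ ?_ ?_
    · -- finiteness
      have hfin := (hFZ K₁ f hf).image (fun P : Place K₁ (ModelField K₁ (M * q)) =>
        P.toValuationSubring)
      refine hfin.subset ?_
      rintro V ⟨hV, hnu⟩
      obtain ⟨P, rfl⟩ := klAsm_exists_place (K₁ := K₁) (A₀ := A₀) V hV.1.1
      refine ⟨P, ?_, rfl⟩
      intro h0
      exact hnu (ss_unit_of_ord_eq_zero P h0)
    · intro V hV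
      obtain ⟨P, rfl⟩ := klAsm_exists_place (K₁ := K₁) (A₀ := A₀) V hV
      exact klAsm_ordDvd_of_place P r f hf (hord P)
    · intro V hV hnu
      obtain ⟨P, rfl⟩ := klAsm_exists_place (K₁ := K₁) (A₀ := A₀) V hV.1.1
      have hP : P.ord f ≠ 0 := fun h0 => hnu (ss_unit_of_ord_eq_zero P h0)
      exact hPG K₁ A₀ hq h1 h2 h3 ϖ hϖ x hx y hyx 𝔪 h𝔪 hϖ𝔪 _ hV
        (ss_isRationalPlace_of A₀ P (hrat P hP))
  exact ⟨main x (Or.inl rfl) htr hfd hσx rfl, main x⁻¹ (Or.inr rfl) htri hfdi hσxi hCinv⟩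

/-- **`Fermat.Agent.H82.SS.ModelLocalPrincStatement` from the geometric statements** (no roots
of unity needed by the providers). -/
theorem modelLocalPrinc_of_placeGen (M q : ℕ) [NeZero M] [NeZero q] (x₀ : LaurentSeries ℚ)
    (hH : LocalHartogsStatement)
    (hTr : ModelTranscendentalStatement (M * q) x₀)
    (hFin : ModelFiniteStatement (M * q) x₀)
    (hSD : ModelGaussSDStatement M q x₀)
    (hσ : ModelSigmaCongrStatement M q x₀)
    (hFZ : ModelFiniteZerosStatement (M * q))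
    (hPG : SSPlaceGenStatement M q x₀ 1 1 1) :
    ModelLocalPrincStatement M q x₀ := by
  intro K₁ _ _ _ A₀ _ _ _ _ _ _ _ hq ϖ hϖ x hx σ₁ hσ₁ r hr hrA f hf hord hrat
  have h1 : ∃ ζ : K₁, IsPrimitiveRoot ζ 1 := ⟨1, IsPrimitiveRoot.one⟩
  exact ssModelLocalPrinc_of_placeGen M q x₀ 1 1 1 hH hTr hFin hSD hσ hFZ hPG K₁ A₀ hq h1 h1 h1
    ϖ hϖ x hx σ₁ hσ₁ r hr hrA f hf hord hrat

end Fermat.Agent.H45
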