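import Fermat.Agent.H45.SS.AuxGlue
import Fermat.Agent.H45.SS.ModelLP
import Fermat.Agent.H70.SS.DescentFinal
import Fermat.Agent.H90.SS.SigmaCongr
import Fermat.Agent.H95.SS.FiniteZeros
import Fermat.Agent.H66.SS.ChartTransfer
import Fermat.Agent.H62.SS.AtkinLehnerModel

/-!
# P-SS : the final chain of the hard half (helper45)

Everything below the three point statements is landed, so:

* `ssPlaceGen_jq_of_points` : the three point statements (ordinary points, crossing points, cusps)
  in the chart `j` give `SSPlaceGenStatement M q jq R₁ R₂ R₃`;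
* `ssModelLocalPrinc_jq_of_points` : with the local Hartogs statement they give the local
  principalisation with roots of unity;
* `modelLocalPrinc_jq_of_points` : the same without roots of unity (`R₁ = R₂ = R₃ = 1`), in the
  contract form `Fermat.Agent.H82.SS.ModelLocalPrincStatement M q jq`;
* `secondDifference_of_points`, `unipotentTorsionAux_of_points` : the second difference statement
  at the auxiliary levels and the input `UnipotentTorsionAuxStatement` of
  `Fermat.Agent.H71.SS.s34_of_aux`.
-/

set_option autoImplicit false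
set_option linter.style.haveILetI false

namespace Fermat.Agent.H45

open Polynomial ModularCurve AlgebraicCurve
open Fermat.Agent.H22.KL
open Fermat.Agent.H82.SS

/-- **All place generators in the chart `j`** from the three point statements. -/
theorem ssPlaceGen_jq_of_points (M q : ℕ) [NeZero M] [NeZero q] (hq : q.Prime) (hqM : ¬ q ∣ M)
    (R₁ R₂ R₃ : ℕ)
    (hOrd : SSPlaceGenOrdStatement M q jq R₁)
    (hCross : SSPlaceGenCrossStatement M q jq R₂)
    (hCusp : SSPlaceGenCuspStatement M q jq R₃) :
    SSPlaceGenStatement M q jq R₁ R₂ R₃ := by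
  have hMq : Nat.Coprime M q := ((Nat.Prime.coprime_iff_not_dvd hq).mpr hqM).symm
  exact ssPlaceGen_of_parts M q jq R₁ R₂ R₃
    (Fermat.Agent.H58.modelTranscendental_jq (M * q))
    (Fermat.Agent.H57.SS.modelFinite (M * q))
    (fun K₁ _ _ _ => Fermat.Agent.H62.SS.modelAtkinLehnerExists M q hMq K₁)
    Fermat.Agent.H66.CT.chartTransfer hOrd hCross hCusp

/-- **Local principalisation with roots of unity** from local Hartogs and the three point
statements. -/
theorem ssModelLocalPrinc_jq_of_points (M q : ℕ) [NeZero M] [NeZero q] (hq : q.Prime)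
    (hqM : ¬ q ∣ M) (R₁ R₂ R₃ : ℕ)
    (hH : LocalHartogsStatement)
    (hOrd : SSPlaceGenOrdStatement M q jq R₁)
    (hCross : SSPlaceGenCrossStatement M q jq R₂)
    (hCusp : SSPlaceGenCuspStatement M q jq R₃) :
    SSModelLocalPrincStatement M q jq R₁ R₂ R₃ :=
  ssModelLocalPrinc_of_placeGen M q jq R₁ R₂ R₃ hH
    (Fermat.Agent.H58.modelTranscendental_jq (M * q))
    (Fermat.Agent.H57.SS.modelFinite (M * q))
    (Fermat.Agent.H7.SS.modelGaussSD_prime M q hq hqM)
    (Fermat.Agent.H90.SS.modelSigmaCongr M q hq hqM)
    (Fermat.Agent.H95.SS.modelFiniteZeros (M * q))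
    (ssPlaceGen_jq_of_points M q hq hqM R₁ R₂ R₃ hOrd hCross hCusp)

/-- **Local principalisation (contract form)** from local Hartogs and the three point statements
without roots of unity. -/
theorem modelLocalPrinc_jq_of_points (M q : ℕ) [NeZero M] [NeZero q] (hq : q.Prime)
    (hqM : ¬ q ∣ M)
    (hH : LocalHartogsStatement)
    (hOrd : SSPlaceGenOrdStatement M q jq 1)
    (hCross : SSPlaceGenCrossStatement M q jq 1)
    (hCusp : SSPlaceGenCuspStatement M q jq 1) :
    ModelLocalPrincStatement M q jq :=
  modelLocalPrinc_of_placeGen M q jq hH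
    (Fermat.Agent.H58.modelTranscendental_jq (M * q))
    (Fermat.Agent.H57.SS.modelFinite (M * q))
    (Fermat.Agent.H7.SS.modelGaussSD_prime M q hq hqM)
    (Fermat.Agent.H90.SS.modelSigmaCongr M q hq hqM)
    (Fermat.Agent.H95.SS.modelFiniteZeros (M * q))
    (ssPlaceGen_jq_of_points M q hq hqM 1 1 1 hOrd hCross hCusp)

/-- **The second difference statement at level `M q`** from local Hartogs and the three point
statements (no roots of unity). -/
theorem secondDifference_of_points (M q : ℕ) [NeZero M] [NeZero q] (hq : q.Prime)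
    (hqM : ¬ q ∣ M)
    (hH : LocalHartogsStatement)
    (hOrd : SSPlaceGenOrdStatement M q jq 1)
    (hCross : SSPlaceGenCrossStatement M q jq 1)
    (hCusp : SSPlaceGenCuspStatement M q jq 1) :
    SecondDifferenceStatement (M * q) q :=
  Fermat.Agent.H70.SS.secondDifference_of_localPrinc_mul M q hq hqM
    (modelLocalPrinc_jq_of_points M q hq hqM hH hOrd hCross hCusp)

/-- **The auxiliary-level statement of P-SS** (input of `Fermat.Agent.H71.SS.s34_of_aux`) from
local Hartogs and the three point statements at the auxiliary pairs `(M, q)`. -/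
theorem unipotentTorsionAux_of_points
    (hH : LocalHartogsStatement)
    (hpts : ∀ (M q : ℕ) [NeZero M] [NeZero q], q.Prime → ¬ q ∣ M →
      (q ≠ 2 → 4 ∣ M) → (q = 2 → 9 ∣ M) →
      SSPlaceGenOrdStatement M q jq 1 ∧ SSPlaceGenCrossStatement M q jq 1 ∧
        SSPlaceGenCuspStatement M q jq 1) :
    Fermat.Agent.H71.SS.UnipotentTorsionAuxStatement :=
  unipotentTorsionAux_of_secondDifference fun M q _ _ hq hqM h4 h9 =>
    secondDifference_of_points M q hq hqM hH (hpts M q hq hqM h4 h9).1
      (hpts M q hq hqM h4 h9).2.1 (hpts M q hq hqM h4 h9).2.2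

end Fermat.Agent.H45
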