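import Fermat.Agent.H45.SS.Chain
import Fermat.Agent.H70.SS.DescentRoots
import Fermat.Agent.H4.SS.Hartogs

/-!
# P-SS : the final chain of the hard half, with roots of unity and local Hartogs plugged in
(helper45)

The local Hartogs statement is landed (`Fermat.Agent.H4.SS.localHartogs`), and the descent with
roots of unity is landed (`Fermat.Agent.H70.SS.secondDifference_of_ssLocalPrinc_mul`).  Hence the
ONLY open inputs of the hard half are the three point statements, with roots of unity of orders
`R₁ R₂ R₃ > 0` chosen by their providers (they may depend on `M` and `q`):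

* `secondDifference_of_pointsRoots` : the second difference statement at level `M q`;
* `unipotentTorsionAux_of_pointsRoots` : `Fermat.Agent.H71.SS.UnipotentTorsionAuxStatement`, the
  input of `Fermat.Agent.H71.SS.s34_of_aux`.
-/

set_option autoImplicit false
set_option linter.style.haveILetI false

namespace Fermat.Agent.H45

open Polynomial ModularCurve AlgebraicCurve
open Fermat.Agent.H22.KL
open Fermat.Agent.H82.SS

/-- **The second difference statement at level `M q`** from the three point statements with
roots of unity. -/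
theorem secondDifference_of_pointsRoots (M q : ℕ) [NeZero M] [NeZero q] (hq : q.Prime)
    (hqM : ¬ q ∣ M) (R₁ R₂ R₃ : ℕ) (h1 : 0 < R₁) (h2 : 0 < R₂) (h3 : 0 < R₃)
    (hOrd : SSPlaceGenOrdStatement M q jq R₁)
    (hCross : SSPlaceGenCrossStatement M q jq R₂)
    (hCusp : SSPlaceGenCuspStatement M q jq R₃) :
    SecondDifferenceStatement (M * q) q :=
  Fermat.Agent.H70.SS.secondDifference_of_ssLocalPrinc_mul M q hq hqM R₁ R₂ R₃ h1 h2 h3
    (ssModelLocalPrinc_jq_of_points M q hq hqM R₁ R₂ R₃ Fermat.Agent.H4.SS.localHartogs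
      hOrd hCross hCusp)

/-- **The auxiliary-level statement of P-SS** (input of `Fermat.Agent.H71.SS.s34_of_aux`) from the
three point statements at the auxiliary pairs `(M, q)`, with roots of unity. -/
theorem unipotentTorsionAux_of_pointsRoots
    (hpts : ∀ (M q : ℕ) [NeZero M] [NeZero q], q.Prime → ¬ q ∣ M →
      (q ≠ 2 → 4 ∣ M) → (q = 2 → 9 ∣ M) →
      ∃ R₁ R₂ R₃ : ℕ, 0 < R₁ ∧ 0 < R₂ ∧ 0 < R₃ ∧
        SSPlaceGenOrdStatement M q jq R₁ ∧ SSPlaceGenCrossStatement M q jq R₂ ∧
          SSPlaceGenCuspStatement M q jq R₃) :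
    Fermat.Agent.H71.SS.UnipotentTorsionAuxStatement :=
  unipotentTorsionAux_of_secondDifference fun M q _ _ hq hqM h4 h9 => by
    obtain ⟨R₁, R₂, R₃, h1, h2, h3, hOrd, hCross, hCusp⟩ := hpts M q hq hqM h4 h9
    exact secondDifference_of_pointsRoots M q hq hqM R₁ R₂ R₃ h1 h2 h3 hOrd hCross hCusp

end Fermat.Agent.H45
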