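import Fermat.Agent.H45.SS.ChartChangeCore

/-!
# P-SS : change of chart for the regularity of a model (helper45)

`regParam_chartChange` : two charts `y`, `y'` with `y' ∈ B(y)`, and `d ∈ B(y')`, `d ≠ 0`,
`d⁻¹ ∈ B(y)`, `d ^ n₀ * y ∈ B(y')` (so that `B(y) = B(y')[1 / d]`).  If every maximal ideal
`𝔫' ∋ ϖ` of `B(y')` with `d ∉ 𝔫'` is generated, locally, by `ϖ` and one more element (the shape
REG of `Fermat.Agent.H41.SS.ModelLevelRegStatement` / `Fermat.Agent.H67.SS.RegParam`), then so is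
every maximal ideal `𝔫 ∋ ϖ` of `B(y)`.
-/

set_option autoImplicit false
set_option linter.unusedSectionVars false
set_option linter.style.haveILetI false

noncomputable section

namespace Fermat.Agent.H45

open Polynomial
open Fermat.Agent.H22.KL

variable {A : Type} [CommRing A] [IsDomain A] [IsDiscreteValuationRing A]
variable {E : Type} [Field E] [Algebra A E] [CharZero E]

/-- A unit of `B(y)` lies in no maximal ideal. -/
theorem cc_unit_notMem (y y' d : E) (hle : chartClosure A E y' ≤ chartClosure A E y)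
    (hd : d ∈ chartClosure A E y') (hd0 : d ≠ 0)
    (hdinv : d⁻¹ ∈ chartClosure A E y) 
    (𝔫 : Ideal (chartClosure A E y)) (h𝔫 : 𝔫.IsMaximal) : (⟨d, hle hd⟩ : chartClosure A E y) ∉ 𝔫 := by
    intro h
    apply h𝔫.ne_top
    rw [Ideal.eq_top_iff_one]
    have e : (1 : chartClosure A E y) = ⟨d, hle hd⟩ * ⟨d⁻¹, hdinv⟩ := Subtype.ext (by
      rw [Subalgebra.coe_mul, Subalgebra.coe_one]
      exact (mul_inv_cancel₀ hd0).symm)
    rw [e]
    exact 𝔫.mul_mem_right _ h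

/-- `B(y) ⊆ B(y')[1 / d]`, subtype form. -/
theorem cc_loc (y y' d : E) (hle : chartClosure A E y' ≤ chartClosure A E y)
    (hd : d ∈ chartClosure A E y') (n₀ : ℕ) (hyd : d ^ n₀ * y ∈ chartClosure A E y') :
   ∀ z : chartClosure A E y, ∃ (n : ℕ) (z' : chartClosure A E y'),
      (Subalgebra.inclusion hle).toRingHom z' = (⟨d, hle hd⟩ : chartClosure A E y) ^ n * z := by
    intro z
    obtain ⟨n, hn⟩ := cc_exists_pow_mul_mem y y' d hd n₀ hyd (z : E) z.2
    refine ⟨n, ⟨d ^ n * (z : E), hn⟩, Subtype.ext ?_⟩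
    have hιcoe : ∀ b : chartClosure A E y',
      (((Subalgebra.inclusion hle).toRingHom b : chartClosure A E y) : E) = (b : E) :=
      fun b => Subalgebra.coe_inclusion hle b
    rw [hιcoe, Subalgebra.coe_mul, Subalgebra.coe_pow]

/-- The inclusion `B(y') → B(y)` is `A`-linear. -/
theorem cc_inclusion_algebraMap (ϖ : A) (y y' : E) (hle : chartClosure A E y' ≤ chartClosure A E y) :
    (Subalgebra.inclusion hle).toRingHom (algebraMap A (chartClosure A E y') ϖ)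
      = algebraMap A (chartClosure A E y) ϖ :=
    (Subalgebra.inclusion hle).commutes ϖ

/-- The contraction contains `ϖ`. -/
theorem cc_pi_mem_comap (ϖ : A) (y y' : E) (hle : chartClosure A E y' ≤ chartClosure A E y)
    (𝔫 : Ideal (chartClosure A E y)) 
    (hϖ𝔫 : algebraMap A (chartClosure A E y) ϖ ∈ 𝔫) : algebraMap A (chartClosure A E y') ϖ ∈
      𝔫.comap (Subalgebra.inclusion hle).toRingHom := by
    rw [Ideal.mem_comap, cc_inclusion_algebraMap]
    exact hϖ𝔫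

/-- The contraction does not contain `d`. -/
theorem cc_notMem_comap (y y' d : E) (hle : chartClosure A E y' ≤ chartClosure A E y)
    (hd : d ∈ chartClosure A E y') (𝔫 : Ideal (chartClosure A E y)) 
    (hD𝔫 : (⟨d, hle hd⟩ : chartClosure A E y) ∉ 𝔫) : (⟨d, hd⟩ : chartClosure A E y') ∉
      𝔫.comap (Subalgebra.inclusion hle).toRingHom := by
    have hιd : (Subalgebra.inclusion hle).toRingHom (⟨d, hd⟩ : chartClosure A E y')
      = ⟨d, hle hd⟩ := Subtype.ext (Subalgebra.coe_inclusion hle _)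
    rw [Ideal.mem_comap, hιd]
    exact hD𝔫

/-- **Change of chart for the regularity statement.** -/
theorem regParam_chartChange (ϖ : A) (hϖ : Irreducible ϖ) (y y' d : E)
    (hy' : y' ∈ chartClosure A E y) (hd : d ∈ chartClosure A E y') (hd0 : d ≠ 0)
    (hdinv : d⁻¹ ∈ chartClosure A E y) (n₀ : ℕ) (hyd : d ^ n₀ * y ∈ chartClosure A E y')
    (hreg : ∀ 𝔫' : Ideal (chartClosure A E y'), 𝔫'.IsMaximal →
      algebraMap A (chartClosure A E y') ϖ ∈ 𝔫' →
      (⟨d, hd⟩ : chartClosure A E y') ∉ 𝔫' →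
      ∃ U : chartClosure A E y', U ∈ 𝔫' ∧ ∀ z ∈ 𝔫', ∃ s, s ∉ 𝔫' ∧
        ∃ b₁ b₂ : chartClosure A E y',
          s * z = algebraMap A (chartClosure A E y') ϖ * b₁ + U * b₂)
    (𝔫 : Ideal (chartClosure A E y)) (h𝔫 : 𝔫.IsMaximal)
    (hϖ𝔫 : algebraMap A (chartClosure A E y) ϖ ∈ 𝔫) :
    ∃ U : chartClosure A E y, U ∈ 𝔫 ∧ ∀ z ∈ 𝔫, ∃ s, s ∉ 𝔫 ∧
      ∃ b₁ b₂ : chartClosure A E y,
        s * z = algebraMap A (chartClosure A E y) ϖ * b₁ + U * b₂ := by
  have hle : chartClosure A E y' ≤ chartClosure A E y := cc_chartClosure_le y y' hy'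
  have h𝔫'max : (𝔫.comap (Subalgebra.inclusion hle).toRingHom).IsMaximal :=
    cc_comap_isMaximal ϖ hϖ y y' hle 𝔫 h𝔫 hϖ𝔫
  haveI : 𝔫.IsPrime := h𝔫.isPrime
  have hD𝔫 := cc_unit_notMem y y' d hle hd hd0 hdinv 𝔫 h𝔫
  obtain ⟨U', hU', hregU⟩ := hreg _ h𝔫'max (cc_pi_mem_comap ϖ y y' hle 𝔫 hϖ𝔫) (cc_notMem_comap y y' d hle hd 𝔫 hD𝔫)
  have key := cc_reg_transfer_gen (Subalgebra.inclusion hle).toRingHom 𝔫
    (algebraMap A (chartClosure A E y') ϖ) ⟨d, hle hd⟩ hD𝔫 (cc_loc y y' d hle hd n₀ hyd) U' hregU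
  refine ⟨(Subalgebra.inclusion hle).toRingHom U', Ideal.mem_comap.1 hU', ?_⟩
  intro z hz
  obtain ⟨s, hs, b₁, b₂, h⟩ := key z hz
  exact ⟨s, hs, b₁, b₂, by rw [h, cc_inclusion_algebraMap]⟩

end Fermat.Agent.H45
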