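import Fermat.Agent.H45.KLSS
import Fermat.Agent.H22.ES.KLAbs
import Fermat.Agent.H85.KLChart
import Fermat.Agent.H34.KL.LemmaT
import Fermat.Agent.H89.KLGauss
import Fermat.Agent.H95.KL.ChartConst
import Fermat.Agent.H87.KL.KumIdem

/-!
# P-SS : the abstract key lemma KL-SS in the chart language of `H22.KL` (helper45)

Same setting as `Fermat.Agent.H22.KL.AbstractKeyLemmaStatement`, but WITHOUT a good basis and
WITHOUT branch hypotheses (no normality of the special fibre).  They are replaced by LOCAL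
PRINCIPALISATION: at every maximal ideal `𝔪 ∋ ϖ` of the chart `B(y)` (`y = x` and `y = x⁻¹`) a
function `Hinv ≡ 1` modulo `ϖ C` such that `u * Hinv ^ r` has no pole at `𝔪`.

* `LocalPrinc` : the local principalisation hypothesis.
* `klssAbs_noKummer` : no Kummer extension `E₀(w)`, `w ^ r = u ≡ 1`, of degree `r` with
  constants `A` exists.
* `klssAbs_prime` : `u` is an `r`-th power in `E₀` (`r` prime).

Everything is unconditional: the general blocks `chartBasics` (helper85), `lemmaT` (helper34),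
`gaussClosureStatement` (helper89), `chartConstStatement` (helper95), the Kummer trace tools
(helper87) and the connectedness lemma (helper67) do not need a good basis.
-/

set_option autoImplicit false
set_option linter.style.haveILetI false
set_option linter.unusedSectionVars false

noncomputable section

namespace Fermat.Agent.H45

open Polynomial
open Fermat.Agent.H22.KL
open Fermat.Agent.H67.KLConn
open Fermat.Agent.H87.KL

/-- **Local principalisation** of `u` (exponent `r`) in the chart `y`: at every maximal ideal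
`𝔪 ∋ ϖ` of `B(y)` there is `Hinv ∈ C(y)`, `Hinv ≡ 1` modulo `ϖ C(y)`, and `b ∈ B(y) ∖ 𝔪` with
`b * (u * Hinv ^ r) ∈ B(y)`. -/
def LocalPrinc (A : Type) [CommRing A] (E₀ : Type) [Field E₀] [Algebra A E₀]
    (ϖ : A) (y : E₀) (r : ℕ) (u : E₀) : Prop :=
  ∀ 𝔪 : Ideal (chartClosure A E₀ y), 𝔪.IsMaximal →
    algebraMap A (chartClosure A E₀ y) ϖ ∈ 𝔪 →
    ∃ Hinv : E₀, Hinv ∈ gaussClosure A E₀ ϖ y ∧
      PiDvdSet A E₀ ϖ (gaussClosure A E₀ ϖ y) (Hinv - 1) ∧
      ∃ b : chartClosure A E₀ y, b ∉ 𝔪 ∧ (b : E₀) * (u * Hinv ^ r) ∈ chartClosure A E₀ y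

section Tools

variable {A : Type} [CommRing A] {E : Type} [Field E] [Algebra A E]

/-- `klssIdem` is the value of the Lagrange polynomial of helper87. -/
theorem klssIdem_eq_aeval_lagr (r : ℕ) (u s : A) (w : E) :
    klssIdem r u s w = aeval w (lagr u s r) := by
  unfold klssIdem lagr
  rw [map_mul, aeval_C, map_sum, Algebra.smul_def]
  congr 1
  refine Finset.sum_congr rfl fun i _ => ?_
  rw [map_mul, aeval_C, aeval_X_pow, _root_.smul_pow, Algebra.smul_def]

theorem klss_piDvd_iff {O : Subalgebra A E} {S : Set E} (hO : ∀ z, z ∈ O ↔ z ∈ S) {ϖ : A}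
    {z : E} : PiDvd ϖ O 1 z ↔ PiDvdSet A E ϖ S z := by
  constructor
  · rintro ⟨c, hc, rfl⟩
    exact ⟨c, (hO c).1 hc, by rw [pow_one, Algebra.smul_def]⟩
  · rintro ⟨c, hc, rfl⟩
    exact ⟨c, (hO c).2 hc, by rw [pow_one, Algebra.smul_def]⟩

end Tools

section Gauss

variable {A : Type} [CommRing A] [IsDomain A] [IsDiscreteValuationRing A]
  {E : Type} [Field E] [Algebra A E]

/-- The Gauss closure is (the carrier of) a subalgebra. -/
theorem klss_exists_gaussSub (hinj : Function.Injective (algebraMap A E)) (ϖ : A)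
    (hϖ : Irreducible ϖ) (X : E) (hX : Transcendental A X) :
    ∃ O : Subalgebra A E, ∀ z, z ∈ O ↔ z ∈ gaussClosure A E ϖ X := by
  obtain ⟨hBC, hC, -⟩ := Fermat.Agent.H89.gaussClosureStatement A E hinj ϖ hϖ X hX
  exact ⟨{ carrier := gaussClosure A E ϖ X
           mul_mem' := fun {a b} ha hb => (hC a ha b hb).2.1
           add_mem' := fun {a b} ha hb => (hC a ha b hb).1
           one_mem' := hBC 1 (chartClosure A E X).one_mem
           zero_mem' := hBC 0 (chartClosure A E X).zero_mem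
           algebraMap_mem' := fun a => hBC _ ((chartClosure A E X).algebraMap_mem a) },
    fun z => Iff.rfl⟩

end Gauss

section Tower

variable {A : Type} [CommRing A]
  {E₀ E : Type} [Field E₀] [Field E] [Algebra A E₀] [Algebra A E] [Algebra E₀ E]
  [IsScalarTower A E₀ E]

theorem klss_map_chartField (x : E₀) (c : E₀) (hc : c ∈ chartField A E₀ x) :
    algebraMap E₀ E c ∈ chartField A E (algebraMap E₀ E x) := by
  have h : chartField A E₀ x ≤ (chartField A E (algebraMap E₀ E x)).comap (algebraMap E₀ E) := by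
    refine Subfield.closure_le.2 ?_
    intro y hy
    obtain ⟨H, rfl⟩ := (mem_chartRing_iff x y).1 hy
    show algebraMap E₀ E (aeval x H) ∈ chartField A E (algebraMap E₀ E x)
    rw [← Polynomial.aeval_algebraMap_apply E x H]
    exact Subfield.subset_closure (aeval_mem_chartRing _ H)
  exact h hc

/-- Finite-dimensionality over the chart field passes to finite extensions. -/
theorem klss_exists_basis_tower [FiniteDimensional E₀ E] (x : E₀)
    (hfd : ∃ n : ℕ, Nonempty (Module.Basis (Fin n) (chartField A E₀ x) E₀)) :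
    ∃ n : ℕ, Nonempty (Module.Basis (Fin n) (chartField A E (algebraMap E₀ E x)) E) := by
  obtain ⟨n, ⟨b⟩⟩ := hfd
  haveI : Module.Finite (chartField A E₀ x) E₀ := Module.Finite.of_basis b
  haveI : Module.Finite (chartField A E₀ x) E := Module.Finite.trans E₀ E
  let f : chartField A E₀ x →+* chartField A E (algebraMap E₀ E x) :=
    ((algebraMap E₀ E).comp (chartField A E₀ x).subtype).codRestrict _
      (fun c => klss_map_chartField x c c.2)
  letI alg₂ : Algebra (chartField A E₀ x) (chartField A E (algebraMap E₀ E x)) := f.toAlgebra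
  haveI : IsScalarTower (chartField A E₀ x) (chartField A E (algebraMap E₀ E x)) E :=
    IsScalarTower.of_algebraMap_eq (fun c => rfl)
  haveI : Module.Finite (chartField A E (algebraMap E₀ E x)) E :=
    Module.Finite.of_restrictScalars_finite (chartField A E₀ x) _ E
  exact ⟨_, ⟨Module.finBasis _ E⟩⟩

end Tower


section Local

variable {A : Type} [CommRing A] [IsDomain A] [IsDiscreteValuationRing A]
  {E₀ E : Type} [Field E₀] [Field E] [Algebra A E₀] [Algebra A E] [Algebra E₀ E]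
  [IsScalarTower A E₀ E]

theorem klss_map_chartClosure_le (y : E₀) :
    (chartClosure A E₀ y).map (IsScalarTower.toAlgHom A E₀ E)
      ≤ chartClosure A E (algebraMap E₀ E y) := by
  rintro z ⟨z₀, hz₀, rfl⟩
  exact (mem_chartClosure_iff _ _).2 (((mem_chartClosure_iff y z₀).1 hz₀).map_tower)

theorem klss_map_gauss {ϖ : A} {y : E₀} (hy : Transcendental A y) {c : E₀}
    (hc : c ∈ gaussClosure A E₀ ϖ y) :
    algebraMap E₀ E c ∈ gaussClosure A E ϖ (algebraMap E₀ E y) := by
  have hY : Transcendental A (algebraMap E₀ E y) :=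
    (transcendental_algebraMap_iff (algebraMap E₀ E).injective).mpr hy
  exact (mem_gaussClosure_iff hY ϖ _).2 (((mem_gaussClosure_iff hy ϖ c).1 hc).map_tower)

theorem klss_map_piDvdSet {ϖ : A} {y : E₀} (hy : Transcendental A y) {c : E₀}
    (hc : PiDvdSet A E₀ ϖ (gaussClosure A E₀ ϖ y) c) :
    PiDvdSet A E ϖ (gaussClosure A E ϖ (algebraMap E₀ E y)) (algebraMap E₀ E c) := by
  obtain ⟨d, hd, rfl⟩ := hc
  refine ⟨algebraMap E₀ E d, klss_map_gauss hy hd, ?_⟩
  rw [map_mul, ← IsScalarTower.algebraMap_apply A E₀ E]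

/-- **Local lifts from local principalisation**, in the Kummer extension. -/
theorem klss_locf_of_localPrinc (ϖ : A) (y : E₀) (hy : Transcendental A y)
    (r : ℕ) (hr : 0 < r) (rinv s : A) (u : E₀) (w : E) (hw : w ^ r = algebraMap E₀ E u)
    (O : Subalgebra A E) (hO : ∀ z, z ∈ O ↔ z ∈ gaussClosure A E ϖ (algebraMap E₀ E y))
    (hRO : chartClosure A E (algebraMap E₀ E y) ≤ O)
    (hL : LocalPrinc A E₀ ϖ y r u) (hwO : w ∈ O)
    (𝔪 : Ideal ((chartClosure A E₀ y).map (IsScalarTower.toAlgHom A E₀ E)))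
    (h𝔪 : 𝔪.IsMaximal)
    (hϖ𝔪 : algebraMap A ((chartClosure A E₀ y).map (IsScalarTower.toAlgHom A E₀ E)) ϖ ∈ 𝔪) :
    ∃ β : ((chartClosure A E₀ y).map (IsScalarTower.toAlgHom A E₀ E)), β ∉ 𝔪 ∧
      ∃ a ∈ chartClosure A E (algebraMap E₀ E y),
        PiDvd ϖ O 1 (a - (β : E) * klssIdem r rinv s w) := by
  classical
  have hφ : Function.Injective (IsScalarTower.toAlgHom A E₀ E) := (algebraMap E₀ E).injective
  have hφa : ∀ c : E₀, (IsScalarTower.toAlgHom A E₀ E) c = algebraMap E₀ E c := fun c => rfl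
  let e : (chartClosure A E₀ y) ≃ₐ[A]
      ((chartClosure A E₀ y).map (IsScalarTower.toAlgHom A E₀ E)) :=
    (chartClosure A E₀ y).equivMapOfInjective (IsScalarTower.toAlgHom A E₀ E) hφ
  have he : ∀ b : chartClosure A E₀ y,
      ((e b : (chartClosure A E₀ y).map (IsScalarTower.toAlgHom A E₀ E)) : E)
        = algebraMap E₀ E (b : E₀) :=
    fun b => Subalgebra.coe_equivMapOfInjective_apply _ _ _ b
  have hmax₀ : (𝔪.comap e.toRingEquiv.toRingHom).IsMaximal :=
    Ideal.comap_isMaximal_of_surjective e.toRingEquiv.toRingHom e.toRingEquiv.surjective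
  have hϖ₀ : algebraMap A (chartClosure A E₀ y) ϖ ∈ 𝔪.comap e.toRingEquiv.toRingHom := by
    rw [Ideal.mem_comap]
    have : e.toRingEquiv.toRingHom (algebraMap A (chartClosure A E₀ y) ϖ)
        = algebraMap A ((chartClosure A E₀ y).map (IsScalarTower.toAlgHom A E₀ E)) ϖ :=
      e.commutes ϖ
    rw [this]
    exact hϖ𝔪
  obtain ⟨Hinv₀, hHC, hH1, b, hb, hbu⟩ := hL _ hmax₀ hϖ₀
  haveI : 𝔪.IsPrime := h𝔪.isPrime
  have hSR := klss_map_chartClosure_le (A := A) (E := E) y
  refine klss_local_lift ϖ (chartClosure A E (algebraMap E₀ E y)) O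
    ((chartClosure A E₀ y).map (IsScalarTower.toAlgHom A E₀ E)) hRO hSR r hr rinv s hwO ?_ 𝔪
    (algebraMap E₀ E Hinv₀) ?_ ?_ (e b) ?_ ?_
  · intro z hz
    have h1 : z ^ r ∈ chartClosure A E (algebraMap E₀ E y) := hSR hz
    exact (mem_chartClosure_iff _ _).2 (IntX.of_pow hr ((mem_chartClosure_iff _ _).1 h1))
  · exact (hO _).2 (klss_map_gauss hy hHC)
  · rw [klss_piDvd_iff hO]
    have := klss_map_piDvdSet (E := E) hy hH1
    rwa [map_sub, map_one] at this
  · intro h
    exact hb h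
  · rw [he]
    have e1 : algebraMap E₀ E (b : E₀) * (w * algebraMap E₀ E Hinv₀) ^ r
        = (IsScalarTower.toAlgHom A E₀ E) ((b : E₀) * (u * Hinv₀ ^ r)) := by
      rw [hφa, mul_pow, hw, map_mul, map_mul, map_pow]
    rw [e1]
    exact Subalgebra.mem_map.2 ⟨_, hbu, rfl⟩

end Local


section Main

/-- **KL-SS, no nontrivial Kummer extension.**  `E = E₀(w)`, `w ^ r = u`, of degree `r`
(prime), `u ≡ 1` modulo `ϖ C`, with local principalisation in both charts and constants
`B_E(x) ∩ B_E(x⁻¹) = A`, does not exist. -/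
theorem klssAbs_noKummer
    (A : Type) [CommRing A] [IsDomain A] [IsDiscreteValuationRing A]
    (E₀ E : Type) [Field E₀] [Field E] [Algebra A E₀] [Algebra A E] [Algebra E₀ E]
    [IsScalarTower A E₀ E] [CharZero E₀]
    (hinj : Function.Injective (algebraMap A E₀))
    (ϖ : A) (hϖ : Irreducible ϖ) (x : E₀) (hx : Transcendental A x)
    (hfd : ∃ n : ℕ, Nonempty (Module.Basis (Fin n) (chartField A E₀ x) E₀))
    (r : ℕ) (hr : r.Prime) (hru : IsUnit ((r : ℕ) : A)) (hζ : ∃ ζ : A, IsPrimitiveRoot ζ r)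
    (u : E₀) (w : E) (hw : w ^ r = algebraMap E₀ E u)
    (hadj : Algebra.adjoin E₀ ({w} : Set E) = ⊤) (hfin : Module.finrank E₀ E = r)
    (huC : u ∈ gaussClosure A E₀ ϖ x)
    (hu1 : PiDvdSet A E₀ ϖ (gaussClosure A E₀ ϖ x) (u - 1))
    (hLf : LocalPrinc A E₀ ϖ x r u) (hLi : LocalPrinc A E₀ ϖ x⁻¹ r u)
    (hconst : ∀ z : E, z ∈ chartClosure A E (algebraMap E₀ E x) →
      z ∈ chartClosure A E (algebraMap E₀ E x)⁻¹ → z ∈ (algebraMap A E).range) :
    False := by
  have hϖp : Prime ϖ := hϖ.prime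
  have hr0 : 0 < r := hr.pos
  obtain ⟨ζ, hζ⟩ := hζ
  obtain ⟨rinv, hrinv'⟩ := hru.exists_left_inv
  have hrinv : rinv * (r : A) = 1 := hrinv'
  have hru' : (r : A) * rinv = 1 := by rw [mul_comm]; exact hrinv
  haveI hfdE : FiniteDimensional E₀ E :=
    Module.finite_of_finrank_pos (by rw [hfin]; exact hr0)
  -- basic facts about `E`
  haveI : CharZero E := charZero_of_injective_algebraMap (algebraMap E₀ E).injective
  have hinjE : Function.Injective (algebraMap A E) := by
    rw [IsScalarTower.algebraMap_eq A E₀ E]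
    exact (algebraMap E₀ E).injective.comp hinj
  have hX : Transcendental A (algebraMap E₀ E x) :=
    (transcendental_algebraMap_iff (algebraMap E₀ E).injective).mpr hx
  have hX0 : algebraMap E₀ E x ≠ 0 := by
    intro h0
    apply hX
    rw [h0]
    exact isAlgebraic_zero
  have hx0 : x ≠ 0 := fun h => hX0 (by rw [h, map_zero])
  have hxinv : Transcendental A x⁻¹ := fun h => hx (IsAlgebraic.inv_iff.mp h)
  have hXinv : Transcendental A (algebraMap E₀ E x)⁻¹ := fun h => hX (IsAlgebraic.inv_iff.mp h)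
  have hmapinv : algebraMap E₀ E x⁻¹ = (algebraMap E₀ E x)⁻¹ := map_inv₀ _ x
  -- the general blocks for `E`
  obtain ⟨hBC, hCring', hCinv⟩ :=
    Fermat.Agent.H89.gaussClosureStatement A E hinjE ϖ hϖ (algebraMap E₀ E x) hX
  obtain ⟨hBCi, -, -⟩ :=
    Fermat.Agent.H89.gaussClosureStatement A E hinjE ϖ hϖ (algebraMap E₀ E x)⁻¹ hXinv
  rw [hCinv] at hBCi
  have hCring : IsRingLike (gaussClosure A E ϖ (algebraMap E₀ E x)) :=
    ⟨fun y hy z hz => (hCring' y hy z hz).1, fun y hy z hz => (hCring' y hy z hz).2.1,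
      fun y hy => (hCring' y hy y hy).2.2⟩
  obtain ⟨hgen, hmidf, hmidi, hsat⟩ := Fermat.Agent.H85.chartBasics A E hinjE ϖ hϖ
    (algebraMap E₀ E x) hX (klss_exists_basis_tower x hfd)
  have hT := Fermat.Agent.H34.lemmaT A E hinjE ϖ hϖ
  obtain ⟨O, hO⟩ := klss_exists_gaussSub hinjE ϖ hϖ (algebraMap E₀ E x) hX
  have hOi : ∀ z, z ∈ O ↔ z ∈ gaussClosure A E ϖ (algebraMap E₀ E x⁻¹) := by
    intro z
    rw [hmapinv, hCinv]
    exact hO z
  have hRfO : chartClosure A E (algebraMap E₀ E x) ≤ O := fun z hz => (hO z).2 (hBC z hz)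
  have hRiO : chartClosure A E (algebraMap E₀ E x)⁻¹ ≤ O := fun z hz => (hO z).2 (hBCi z hz)
  have hRiO' : chartClosure A E (algebraMap E₀ E x⁻¹) ≤ O := by
    rw [hmapinv]; exact hRiO
  have hXf : algebraMap E₀ E x ∈ chartClosure A E (algebraMap E₀ E x) :=
    mem_chartClosure_of_mem_chartRing (Algebra.subset_adjoin (Set.mem_singleton _))
  have hXi : (algebraMap E₀ E x)⁻¹ ∈ chartClosure A E (algebraMap E₀ E x)⁻¹ :=
    mem_chartClosure_of_mem_chartRing (Algebra.subset_adjoin (Set.mem_singleton _))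
  -- saturation
  have hsatf : ∀ z ∈ chartClosure A E (algebraMap E₀ E x), PiDvd ϖ O 1 z →
      PiDvd ϖ (chartClosure A E (algebraMap E₀ E x)) 1 z := fun z hz h =>
    hT (algebraMap E₀ E x) hX z hz ((klss_piDvd_iff hO).1 h)
  have hsati : ∀ z ∈ chartClosure A E (algebraMap E₀ E x)⁻¹, PiDvd ϖ O 1 z →
      PiDvd ϖ (chartClosure A E (algebraMap E₀ E x)⁻¹) 1 z := by
    intro z hz h
    refine hT (algebraMap E₀ E x)⁻¹ hXinv z hz ?_
    rw [hCinv]
    exact (klss_piDvd_iff hO).1 h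
  have hsatm : ∀ z ∈ chartClosure A E (algebraMap E₀ E x) ⊔
      chartClosure A E (algebraMap E₀ E x)⁻¹, PiDvd ϖ O 1 z →
      PiDvd ϖ (chartClosure A E (algebraMap E₀ E x) ⊔
        chartClosure A E (algebraMap E₀ E x)⁻¹) 1 z := by
    intro z hz h
    obtain ⟨k, hk⟩ := exists_pow_mul_mem (algebraMap E₀ E x)
      (chartClosure A E (algebraMap E₀ E x)) (chartClosure A E (algebraMap E₀ E x)⁻¹)
      hXf hmidi hz
    have hXkO : (algebraMap E₀ E x) ^ k ∈ O := hRfO (Subalgebra.pow_mem _ hXf k)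
    obtain ⟨c, hc, hcd⟩ := hsatf _ hk (h.mul_left hXkO)
    refine ⟨(algebraMap E₀ E x)⁻¹ ^ k * c, ?_, ?_⟩
    · exact Subalgebra.mul_mem _
        (Subalgebra.pow_mem _ ((le_sup_right : chartClosure A E (algebraMap E₀ E x)⁻¹ ≤ _) hXi) k)
        ((le_sup_left : chartClosure A E (algebraMap E₀ E x) ≤ _) hc)
    · have hXk0 : (algebraMap E₀ E x) ^ k ≠ 0 := pow_ne_zero k hX0
      have e1 : z = (algebraMap E₀ E x)⁻¹ ^ k * ((algebraMap E₀ E x) ^ k * z) := by
        rw [inv_pow, ← mul_assoc, inv_mul_cancel₀ hXk0, one_mul]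
      rw [e1, hcd, mul_smul_comm]
  -- the Kummer element
  have hwGC : GC ϖ (algebraMap E₀ E x) w := by
    refine GC.of_pow hϖp hr0 ?_
    rw [hw]
    exact ((mem_gaussClosure_iff hx ϖ u).1 huC).map_tower
  have hwO : w ∈ O := (hO w).2 ((mem_gaussClosure_iff hX ϖ w).2 hwGC)
  have hwr : PiDvd ϖ O 1 (w ^ r - 1) := by
    rw [klss_piDvd_iff hO, hw]
    have := klss_map_piDvdSet (E := E) hx hu1
    rwa [map_sub, map_one] at this
  have hεO : klssIdem r rinv 1 w ∈ O := klssIdem_mem O r rinv 1 hwO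
  have hε2 := klss_idem_sq ϖ O r rinv 1 hru' (one_pow r) hwO hwr
  -- local lifts
  have hlocf := klss_locf_of_localPrinc (E := E) ϖ x hx r hr0 rinv 1 u w hw O hO hRfO hLf hwO
  have hloci := klss_locf_of_localPrinc (E := E) ϖ x⁻¹ hxinv r hr0 rinv 1 u w hw O hOi hRiO'
    hLi hwO
  rw [hmapinv] at hloci
  have hSf := klss_map_chartClosure_le (A := A) (E := E) x
  have hSi := klss_map_chartClosure_le (A := A) (E := E) x⁻¹
  rw [hmapinv] at hSi
  -- connectedness
  have hcap : ∀ z, z ∈ chartClosure A E (algebraMap E₀ E x) →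
      z ∈ chartClosure A E (algebraMap E₀ E x)⁻¹ → ∃ α : A, algebraMap A E α = z :=
    fun z hz hz' => hconst z hz hz'
  have hmain := klss_main hϖp (mul_inv_cancel₀ hX0)
    (chartClosure A E (algebraMap E₀ E x)) (chartClosure A E (algebraMap E₀ E x)⁻¹)
    hXf hXi hgen hmidf hmidi hcap hsat O hRfO hRiO hsatf hsati hsatm
    ((chartClosure A E₀ x).map (IsScalarTower.toAlgHom A E₀ E))
    ((chartClosure A E₀ x⁻¹).map (IsScalarTower.toAlgHom A E₀ E)) hSf hSi hεO hε2
    (fun 𝔪 h𝔪 hϖ𝔪 => hlocf 𝔪 h𝔪 hϖ𝔪) (fun 𝔪 h𝔪 hϖ𝔪 => hloci 𝔪 h𝔪 hϖ𝔪)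
  -- no Lagrange idempotent is divisible by `ϖ`
  have hζ₀ : IsPrimitiveRoot (algebraMap A E₀ ζ) r := hζ.map_of_injective hinj
  have hζr : ζ ^ r = 1 := hζ.pow_eq_one
  have hζ1 : (1 : A) ≠ ζ := by
    intro h
    have := hζ.unique (h ▸ IsPrimitiveRoot.one)
    exact hr.one_lt.ne' this
  have hnot : ∀ ρ : A, ¬ PiDvdSet A E ϖ (gaussClosure A E ϖ (algebraMap E₀ E x))
      (aeval w (lagr rinv ρ r)) := by
    rintro ρ ⟨c, hc, hec⟩
    have hcC := (mem_gaussClosure_iff hX ϖ c).1 hc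
    have htr := trace_aeval_lagr hr0 hw hadj hfin hζ₀ hrinv ρ
    rw [hec, IsScalarTower.algebraMap_apply A E₀ E, ← Algebra.smul_def, map_smul,
      smul_eq_mul] at htr
    exact not_piDvdSet_one hx hϖp
      ⟨Algebra.trace E₀ E c, (mem_gaussClosure_iff hx ϖ _).2 hcC.trace, htr.symm⟩
  obtain ⟨c₀, hc₀, hc₀u⟩ := hu1
  have hc₀C : GC ϖ (algebraMap E₀ E x) (algebraMap E₀ E c₀) :=
    ((mem_gaussClosure_iff hx ϖ c₀).1 hc₀).map_tower
  have hu1' : w ^ r - 1 = algebraMap A E ϖ * algebraMap E₀ E c₀ := by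
    rw [hw, ← map_one (algebraMap E₀ E), ← map_sub, hc₀u, map_mul,
      ← IsScalarTower.algebraMap_apply A E₀ E]
  rcases hmain with h | h
  · -- `ε ∈ ϖ C`
    apply hnot 1
    rw [← klssIdem_eq_aeval_lagr]
    exact (klss_piDvd_iff hO).1 h
  · -- `ε - 1 ∈ ϖ C`
    obtain ⟨c, hc, hec⟩ := (klss_piDvd_iff hO).1 h
    rw [klssIdem_eq_aeval_lagr] at hec
    have hcC := (mem_gaussClosure_iff hX ϖ c).1 hc
    obtain ⟨Q, hQ⟩ := X_pow_sub_one_dvd_lagr_mul (rinv := rinv) hr0 hζ (one_pow r) hζr hζ1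
    have h1 := congrArg (aeval w) hQ
    rw [map_mul, map_mul, map_sub, map_pow, aeval_X, map_one, hu1'] at h1
    refine hnot ζ ⟨algebraMap E₀ E c₀ * aeval w Q - aeval w (lagr rinv ζ r) * c,
      (mem_gaussClosure_iff hX ϖ _).2 ?_, ?_⟩
    · have hneg : GC ϖ (algebraMap E₀ E x) (-(aeval w (lagr rinv ζ r) * c)) := by
        have : -(aeval w (lagr rinv ζ r) * c)
            = algebraMap A E (-1) * (aeval w (lagr rinv ζ r) * c) := by
          rw [map_neg, map_one]; ring
        rw [this]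
        exact (GC.const ϖ hϖp _ (-1)).mul hϖp ((hwGC.poly hϖp _).mul hϖp hcC)
      rw [sub_eq_add_neg]
      exact (hc₀C.mul hϖp (hwGC.poly hϖp Q)).add hϖp hneg
    · linear_combination h1 - (aeval w (lagr rinv ζ r)) * hec

/-- **KL-SS, abstract form, prime exponent.**  `E₀ ⊆ Ω` with `A` integrally closed in `Ω`
(e.g. `Ω = K₀((q))`), `u ∈ E₀`, `u ≡ 1` modulo `ϖ C(x)`, with an `r`-th root in `Ω` and with
local principalisation in both charts.  Then `u` is an `r`-th power in `E₀`. -/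
theorem klssAbs_prime
    (A : Type) [CommRing A] [IsDomain A] [IsDiscreteValuationRing A]
    (E₀ Ω : Type) [Field E₀] [Field Ω] [Algebra A E₀] [Algebra A Ω] [Algebra E₀ Ω]
    [IsScalarTower A E₀ Ω] [CharZero E₀]
    (hinj : Function.Injective (algebraMap A E₀))
    (ϖ : A) (hϖ : Irreducible ϖ) (x : E₀) (hx : Transcendental A x)
    (hfd : ∃ n : ℕ, Nonempty (Module.Basis (Fin n) (chartField A E₀ x) E₀))
    (hΩ : ∀ z : Ω, IsIntegral A z → z ∈ (algebraMap A Ω).range)
    (r : ℕ) (hr : r.Prime) (hru : IsUnit ((r : ℕ) : A)) (hζ : ∃ ζ : A, IsPrimitiveRoot ζ r)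
    (u : E₀) (huC : u ∈ gaussClosure A E₀ ϖ x)
    (hu1 : PiDvdSet A E₀ ϖ (gaussClosure A E₀ ϖ x) (u - 1))
    (hLf : LocalPrinc A E₀ ϖ x r u) (hLi : LocalPrinc A E₀ ϖ x⁻¹ r u)
    (hw : ∃ w : Ω, w ^ r = algebraMap E₀ Ω u) :
    ∃ w₀ : E₀, w₀ ^ r = u := by
  obtain ⟨w, hw⟩ := hw
  by_contra hno
  simp only [not_exists] at hno
  have hirr : Irreducible (X ^ r - C u : E₀[X]) := X_pow_sub_C_irreducible_of_prime hr hno
  have hmonic : (X ^ r - C u : E₀[X]).Monic := monic_X_pow_sub_C u hr.ne_zero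
  have hroot : aeval w (X ^ r - C u : E₀[X]) = 0 := by
    simp [hw]
  have hint : IsIntegral E₀ w := ⟨_, hmonic, by simpa [aeval_def] using hroot⟩
  have hmin : minpoly E₀ w = X ^ r - C u :=
    (minpoly.eq_of_irreducible_of_monic hirr hroot hmonic).symm
  let E := IntermediateField.adjoin E₀ ({w} : Set Ω)
  have hfin : Module.finrank E₀ E = r := by
    rw [IntermediateField.adjoin.finrank hint, hmin, natDegree_X_pow_sub_C]
  let w' : E := IntermediateField.AdjoinSimple.gen E₀ w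
  have hw' : w' ^ r = algebraMap E₀ E u := by
    apply Subtype.ext
    simp [w', hw]
  have hadj : Algebra.adjoin E₀ ({w'} : Set E) = ⊤ := by
    have := (IntermediateField.adjoin.powerBasis hint).adjoin_gen_eq_top
    simpa using this
  have hinjE : Function.Injective (algebraMap A E) := by
    rw [IsScalarTower.algebraMap_eq A E₀ E]
    exact (algebraMap E₀ E).injective.comp hinj
  haveI : CharZero E := charZero_of_injective_algebraMap (algebraMap E₀ E).injective
  refine klssAbs_noKummer A E₀ E hinj ϖ hϖ x hx hfd r hr hru hζ u w' hw' hadj hfin huC hu1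
    hLf hLi ?_
  intro z hz hz'
  have hX : Transcendental A (algebraMap E₀ E x) :=
    (transcendental_algebraMap_iff (algebraMap E₀ E).injective).mpr hx
  have hzint : IsIntegral A z :=
    Fermat.Agent.H95.KL.chartConstStatement A E hinjE _ hX z hz hz'
  have hzΩ : IsIntegral A (z : Ω) := by
    obtain ⟨p, hp, hpz⟩ := hzint
    refine ⟨p, hp, ?_⟩
    have h1 := Polynomial.hom_eval₂ p (algebraMap A E) (algebraMap E Ω) z
    rw [hpz, map_zero] at h1
    have h2 : (algebraMap E Ω).comp (algebraMap A E) = algebraMap A Ω :=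
      RingHom.ext fun _ => rfl
    rw [h2] at h1
    exact h1.symm
  obtain ⟨α, hα⟩ := hΩ _ hzΩ
  refine ⟨α, ?_⟩
  apply Subtype.ext
  rw [← hα]
  rfl

end Main

end Fermat.Agent.H45
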