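import Mathlib
import Fermat.Agent.H22.ES.Interfaces
import Fermat.Agent.H8.InertiaBasic

/-!
# P-SS : unipotent inertia on torsion from the SECOND DIFFERENCE statement (helper45)

`SecondDifferenceStatement N q` is the function-field form of `(σ - 1)² = 0` on the
prime-to-`q` torsion of `J₀(N)`: for `σ` in an inertia group at `q` and a function `f` whose
divisor is divisible by `m` (`q ∤ m`), the second difference `σ²(f) f / σ(f)²` is an `m`-th
power in the function field.

`unipotentTorsion_of_secondDifference` turns it into the `J`-side statement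
(`Fermat.Agent.H14.UnipotentTorsionStatement N`, stated here in unfolded form so that this file
only depends on the prelude).
-/

set_option autoImplicit false

open AlgebraicCurve ModularCurve

namespace Fermat.Agent.H45

open Fermat.Agent.H22.ES

/-- **SECOND DIFFERENCE (function-field form of unipotent inertia).**  `A` a valuation subring
of `ℚ̄` over `q`, `σ` in its inertia group, `m > 0` prime to `q`, `f ≠ 0` in the function field
of `X₀(N)` over `ℚ̄` with `m ∣ ord_P f` at every place.  Then `σ²(f) f / σ(f)²` is an `m`-th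
power. -/
def SecondDifferenceStatement (N q : ℕ) : Prop :=
  ∀ (A : ValuationSubring (AlgebraicClosure ℚ)), A.LiesOverPrime q →
    ∀ σ ∈ A.inertiaSubgroupIn ℚ, ∀ (m : ℕ), 0 < m → ¬ q ∣ m →
      ∀ f : modularFunctionFieldBar N, f ≠ 0 →
        (∀ P : Place (AlgebraicClosure ℚ) (modularFunctionFieldBar N), (m : ℤ) ∣ P.ord f) →
        ∃ w : modularFunctionFieldBar N,
          w ^ m * (arithmeticGalois (modularFunctionFieldFull N) σ • f) ^ 2
            = (arithmeticGalois (modularFunctionFieldFull N) σ •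
                arithmeticGalois (modularFunctionFieldFull N) σ • f) * f

section Abstract

variable {K F : Type*} [Field K] [Field F] [Algebra K F]

/-- `ord_P (g f) = m (g D)(P)` when `div f = m D`. -/
theorem ssd_ord_smul (g : SemilinearAut K F) (D : Divisor K F) (m : ℤ) (f : F)
    (hfD : ∀ P : Place K F, P.ord f = m * D P) (P : Place K F) :
    P.ord (g • f) = m * (g • D) P := by
  have h3 : P.ord (g • f) = (g⁻¹ • P).ord f := by
    have := SemilinearAut.ord_smul g (g⁻¹ • P) f
    rwa [smul_inv_smul] at this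
  rw [h3, hfD, SemilinearAut.divisor_smul_apply]

/-- If `m D = div f` and `g²(f) f / g(f)²` is an `m`-th power, then `(g - 1)² [D] = 0`. -/
theorem ssd_pic0_of_pow (g : SemilinearAut K F)
    (D : Divisor.degZero (K := K) (F := F)) (m : ℕ) (hm : 0 < m)
    (f w : F) (hf : f ≠ 0)
    (hfD : ∀ P : Place K F, P.ord f = (m : ℤ) * (D : Divisor K F) P)
    (hw : w ^ m * (g • f) ^ 2 = (g • g • f) * f) :
    g • g • Pic0.mk D - 2 • (g • Pic0.mk D) + Pic0.mk D = 0 := by
  have hgf0 : g • f ≠ 0 := by simpa using hf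
  have hggf0 : g • g • f ≠ 0 := by simpa using hgf0
  have hw0 : w ≠ 0 := by
    intro h0
    rw [h0, zero_pow hm.ne', zero_mul] at hw
    exact mul_ne_zero hggf0 hf hw.symm
  have hm' : (m : ℤ) ≠ 0 := by exact_mod_cast hm.ne'
  have hwD : ∀ P : Place K F,
      P.ord w = (g • g • (D : Divisor K F)) P - 2 * (g • (D : Divisor K F)) P
        + (D : Divisor K F) P := by
    intro P
    have h1 := congrArg P.ord hw
    rw [P.ord_mul (pow_ne_zero m hw0) (pow_ne_zero 2 hgf0), ← zpow_natCast, P.ord_zpow,
      ← zpow_natCast, P.ord_zpow, P.ord_mul hggf0 hf,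
      ssd_ord_smul g (D : Divisor K F) (m : ℤ) f hfD P,
      ssd_ord_smul g (g • (D : Divisor K F)) (m : ℤ) (g • f)
        (ssd_ord_smul g (D : Divisor K F) (m : ℤ) f hfD) P, hfD P] at h1
    have h2 : (m : ℤ) * P.ord w = (m : ℤ) * ((g • g • (D : Divisor K F)) P
        - 2 * (g • (D : Divisor K F)) P + (D : Divisor K F) P) := by
      push_cast at h1
      linarith
    exact mul_left_cancel₀ hm' h2
  rw [SemilinearAut.pic0_smul_mk, SemilinearAut.pic0_smul_mk]
  have e : Pic0.mk (SemilinearAut.degZeroSMulHom g (SemilinearAut.degZeroSMulHom g D))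
      - 2 • Pic0.mk (SemilinearAut.degZeroSMulHom g D) + Pic0.mk D
      = Pic0.mk (SemilinearAut.degZeroSMulHom g (SemilinearAut.degZeroSMulHom g D)
          - 2 • SemilinearAut.degZeroSMulHom g D + D) := by
    unfold Pic0.mk
    rw [QuotientAddGroup.mk_add, QuotientAddGroup.mk_sub, QuotientAddGroup.mk_nsmul]
  rw [e]
  refine (QuotientAddGroup.eq_zero_iff _).mpr ?_
  rw [AddSubgroup.mem_addSubgroupOf]
  refine ⟨w, hw0, fun P => ?_⟩
  rw [hwD P]
  simp only [AddSubgroup.coe_add, AddSubgroup.coe_sub, AddSubgroup.coe_nsmul,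
    SemilinearAut.coe_degZeroSMulHom, Finsupp.coe_add, Finsupp.coe_sub, Finsupp.coe_smul,
    Pi.add_apply, Pi.sub_apply, Pi.smul_apply]
  ring

end Abstract

/-- **Unipotent inertia on torsion from the second difference statement.**  The conclusion is
`Fermat.Agent.H14.UnipotentTorsionStatement N` in unfolded form. -/
theorem unipotentTorsion_of_secondDifference (N : ℕ) [NeZero N]
    (h : ∀ q : ℕ, q.Prime → q ∣ N → ¬ q ^ 2 ∣ N → SecondDifferenceStatement N q) :
    ∀ (q : ℕ), q.Prime → q ∣ N → ¬ q ^ 2 ∣ N → ∀ (m : ℕ), 0 < m → ¬ q ∣ m →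
      ∀ (B : ValuationSubring (AlgebraicClosure ℚ)), B.LiesOverPrime q →
        ∀ σ ∈ B.inertiaSubgroupIn ℚ, ∀ x : JZero N, m • x = 0 →
          σ • σ • x - 2 • (σ • x) + x = 0 := by
  intro q hq hqN hq2 m hm hqm B hB σ hσ x hx
  obtain ⟨D, rfl⟩ := Pic0.mk_surjective x
  have hmD : ((m • D : Divisor.degZero (K := AlgebraicClosure ℚ)
      (F := modularFunctionFieldBar N)) : Divisor (AlgebraicClosure ℚ)
        (modularFunctionFieldBar N)) ∈
      Divisor.principal (K := AlgebraicClosure ℚ) (F := modularFunctionFieldBar N) := by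
    have h1 : Pic0.mk (m • D) = 0 := hx
    have h2 := (QuotientAddGroup.eq_zero_iff _).mp h1
    exact h2
  obtain ⟨f, hf0, hfD⟩ := hmD
  have hfD' : ∀ P : Place (AlgebraicClosure ℚ) (modularFunctionFieldBar N),
      P.ord f = (m : ℤ) * (D : Divisor (AlgebraicClosure ℚ) (modularFunctionFieldBar N)) P := by
    intro P
    rw [← hfD P]
    simp
  obtain ⟨w, hw⟩ := h q hq hqN hq2 B hB σ hσ m hm hqm f hf0
    (fun P => by rw [hfD' P]; exact dvd_mul_right _ _)
  rw [galois_smul_pic0_def, galois_smul_pic0_def]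
  exact ssd_pic0_of_pow _ D m hm f w hf0 hfD' hw

end Fermat.Agent.H45
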