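import Fermat.Agent.H45.SS.SecondDiff
import Fermat.Agent.H14.S34JCore

/-!
# P-SS : `H14.UnipotentTorsionStatement N` from the second difference statement (helper45)
-/

set_option autoImplicit false

namespace Fermat.Agent.H45

/-- The `J`-side target of P-SS (helper14's `UnipotentTorsionStatement`) from the function-field
statement `SecondDifferenceStatement N q` at the primes `q` exactly dividing `N`. -/
theorem unipotentTorsionStatement_of_secondDifference (N : ℕ) [NeZero N]
    (h : ∀ q : ℕ, q.Prime → q ∣ N → ¬ q ^ 2 ∣ N → SecondDifferenceStatement N q) :
    Fermat.Agent.H14.UnipotentTorsionStatement N :=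
  unipotentTorsion_of_secondDifference N h

end Fermat.Agent.H45
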